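import Mathlib

/-!
# P10 / G3 (Poitou–Tate middle), part 5 : the linear algebra of the Greenberg–Wiles formula

Let `B : P × P' → K` be a perfect pairing of finite-dimensional spaces, `lam : H → P`, `lam' : H' → P'`
linear maps whose images are exact orthogonal complements of each other (Poitou–Tate, middle
exactness).  Then for every subspace `L ≤ P`

`dim lam⁻¹(L) + dim H' = dim lam'⁻¹(L^⊥) + dim ker lam + dim L`  (`tl_gw_count`).
-/

set_option autoImplicit false
set_option linter.unusedSectionVars false

open Module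

namespace Fermat.Agent.TW

section

variable {K : Type*} [Field K]

/-- the orthogonal complement of a subspace with respect to a pairing -/
def tlOrth {P P' : Type*} [AddCommGroup P] [Module K P] [AddCommGroup P'] [Module K P']
    (B : P →ₗ[K] P' →ₗ[K] K) (L : Submodule K P) : Submodule K P' :=
  L.dualAnnihilator.comap B.flip

lemma mem_tlOrth_iff {P P' : Type*} [AddCommGroup P] [Module K P] [AddCommGroup P'] [Module K P']
    (B : P →ₗ[K] P' →ₗ[K] K) (L : Submodule K P) (y : P') :
    y ∈ tlOrth B L ↔ ∀ x ∈ L, B x y = 0 := by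
  simp only [tlOrth, Submodule.mem_comap, Submodule.mem_dualAnnihilator]
  exact forall₂_congr fun x _ => by rw [LinearMap.flip_apply]

lemma tlOrth_sup {P P' : Type*} [AddCommGroup P] [Module K P] [AddCommGroup P'] [Module K P']
    (B : P →ₗ[K] P' →ₗ[K] K) (L R : Submodule K P) :
    tlOrth B (L ⊔ R) = tlOrth B L ⊓ tlOrth B R := by
  ext y
  rw [Submodule.mem_inf, mem_tlOrth_iff, mem_tlOrth_iff, mem_tlOrth_iff]
  constructor
  · intro h
    exact ⟨fun x hx => h x (Submodule.mem_sup_left hx), fun x hx => h x (Submodule.mem_sup_right hx)⟩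
  · rintro ⟨h1, h2⟩ x hx
    obtain ⟨a, ha, b, hb, rfl⟩ := Submodule.mem_sup.1 hx
    rw [map_add, LinearMap.add_apply, h1 a ha, h2 b hb, add_zero]

variable {H H' P P' : Type*} [AddCommGroup H] [Module K H] [AddCommGroup H'] [Module K H']
  [AddCommGroup P] [Module K P] [AddCommGroup P'] [Module K P']
  [FiniteDimensional K H] [FiniteDimensional K H'] [FiniteDimensional K P]
  [FiniteDimensional K P']

/-- the dimension of the preimage of a subspace -/
lemma tl_finrank_comap (f : H →ₗ[K] P) (L : Submodule K P) :
    finrank K (L.comap f) = finrank K (LinearMap.ker f) + finrank K ↥(L ⊓ LinearMap.range f) := by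
  have h1 := LinearMap.finrank_range_add_finrank_ker (f.domRestrict (L.comap f))
  rw [LinearMap.range_domRestrict, Submodule.map_comap_eq, LinearMap.ker_domRestrict] at h1
  have hle : LinearMap.ker f ≤ L.comap f := fun x hx => by
    rw [Submodule.mem_comap, LinearMap.mem_ker.1 hx]
    exact L.zero_mem
  have h2 := (Submodule.comapSubtypeEquivOfLe hle).finrank_eq
  rw [h2, inf_comm] at h1
  omega

variable (B : P →ₗ[K] P' →ₗ[K] K) (hl : ∀ x, (∀ y, B x y = 0) → x = 0)
  (hr : ∀ y, (∀ x, B x y = 0) → y = 0)

include hl hr in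
/-- the two sides of a perfect pairing have the same dimension -/
lemma tl_finrank_eq_of_perfect : finrank K P' = finrank K P := by
  have h1 : Function.Injective B := by
    rw [injective_iff_map_eq_zero]
    intro x hx
    exact hl x (fun y => by rw [hx, LinearMap.zero_apply])
  have h2 : Function.Injective B.flip := by
    rw [injective_iff_map_eq_zero]
    intro y hy
    refine hr y (fun x => ?_)
    have := LinearMap.congr_fun hy x
    rwa [LinearMap.flip_apply] at this
  have e1 := LinearMap.finrank_le_finrank_of_injective h1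
  have e2 := LinearMap.finrank_le_finrank_of_injective h2
  rw [Subspace.dual_finrank_eq] at e1 e2
  exact le_antisymm e2 e1

include hl hr in
/-- the dimension of the orthogonal complement for a perfect pairing -/
lemma tl_finrank_tlOrth (W : Submodule K P) :
    finrank K (tlOrth B W) + finrank K W = finrank K P := by
  have h2 : Function.Injective B.flip := by
    rw [injective_iff_map_eq_zero]
    intro y hy
    refine hr y (fun x => ?_)
    have := LinearMap.congr_fun hy x
    rwa [LinearMap.flip_apply] at this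
  have hdim : finrank K P' = finrank K (Dual K P) := by
    rw [Subspace.dual_finrank_eq]
    exact tl_finrank_eq_of_perfect B hl hr
  let e : P' ≃ₗ[K] Dual K P := LinearEquiv.ofInjectiveOfFinrankEq B.flip h2 hdim
  have h3 : tlOrth B W = (W.dualAnnihilator).map (e.symm : Dual K P →ₗ[K] P') := by
    ext y
    rw [tlOrth, Submodule.mem_comap, Submodule.mem_map_equiv, LinearEquiv.symm_symm]
    rfl
  rw [h3, LinearEquiv.finrank_map_eq]
  have h4 := Subspace.finrank_add_finrank_dualAnnihilator_eq W
  omega

variable (lam : H →ₗ[K] P) (lam' : H' →ₗ[K] P')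
  (ha : ∀ x y, B (lam x) (lam' y) = 0)
  (hb : ∀ y, (∀ x, B (lam x) y = 0) → y ∈ LinearMap.range lam')

include ha hb in
lemma tl_range_eq_tlOrth : LinearMap.range lam' = tlOrth B (LinearMap.range lam) := by
  ext y
  rw [mem_tlOrth_iff]
  constructor
  · rintro ⟨y, rfl⟩ x ⟨x, rfl⟩
    exact ha x y
  · intro h
    exact hb y (fun x => h _ ⟨x, rfl⟩)

include hl hr ha hb in
/-- **the linear algebra of the Greenberg–Wiles formula** -/
theorem tl_gw_count (L : Submodule K P) :
    finrank K (L.comap lam) + finrank K H' =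
      finrank K ((tlOrth B L).comap lam') + finrank K (LinearMap.ker lam) + finrank K L := by
  have h1 := tl_finrank_comap lam L
  have h2 := tl_finrank_comap lam' (tlOrth B L)
  rw [tl_range_eq_tlOrth B lam lam' ha hb, ← tlOrth_sup] at h2
  have h3 := tl_finrank_tlOrth B hl hr (L ⊔ LinearMap.range lam)
  have h4 := Submodule.finrank_sup_add_finrank_inf_eq L (LinearMap.range lam)
  have h5 := LinearMap.finrank_range_add_finrank_ker lam'
  rw [tl_range_eq_tlOrth B lam lam' ha hb] at h5
  have h6 := tl_finrank_tlOrth B hl hr (LinearMap.range lam)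
  omega

end

/-! ### Weighted sums of pairings -/

section pi

variable {K : Type*} [Field K] {ι : Type*} [Fintype ι] [DecidableEq ι] {P P' : ι → Type*}
  [∀ i, AddCommGroup (P i)] [∀ i, Module K (P i)] [∀ i, AddCommGroup (P' i)]
  [∀ i, Module K (P' i)] (c : ι → K) (B : ∀ i, P i →ₗ[K] P' i →ₗ[K] K)

/-- the weighted sum of a family of pairings -/
def tlPiPair : (∀ i, P i) →ₗ[K] (∀ i, P' i) →ₗ[K] K :=
  ∑ i, c i • ((B i).compl₁₂ (LinearMap.proj i) (LinearMap.proj i))

lemma tlPiPair_apply (x : ∀ i, P i) (y : ∀ i, P' i) :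
    tlPiPair c B x y = ∑ i, c i * B i (x i) (y i) := by
  unfold tlPiPair
  rw [LinearMap.sum_apply, LinearMap.sum_apply]
  rfl

lemma tlPiPair_single_right (x : ∀ i, P i) (i : ι) (yi : P' i) :
    tlPiPair c B x (Pi.single i yi) = c i * B i (x i) yi := by
  rw [tlPiPair_apply, Finset.sum_eq_single i]
  · rw [Pi.single_eq_same]
  · intro j _ hj
    rw [Pi.single_eq_of_ne hj, map_zero, mul_zero]
  · intro h
    exact absurd (Finset.mem_univ i) h

lemma tlPiPair_single_left (i : ι) (xi : P i) (y : ∀ i, P' i) :
    tlPiPair c B (Pi.single i xi) y = c i * B i xi (y i) := by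
  rw [tlPiPair_apply, Finset.sum_eq_single i]
  · rw [Pi.single_eq_same]
  · intro j _ hj
    rw [Pi.single_eq_of_ne hj, map_zero, LinearMap.zero_apply, mul_zero]
  · intro h
    exact absurd (Finset.mem_univ i) h

variable (hc : ∀ i, c i ≠ 0)

include hc in
lemma tlPiPair_left_nondeg (hB : ∀ i (x : P i), (∀ y, B i x y = 0) → x = 0) (x : ∀ i, P i)
    (h : ∀ y, tlPiPair c B x y = 0) : x = 0 := by
  funext i
  refine hB i (x i) (fun yi => ?_)
  have h1 := h (Pi.single i yi)
  rw [tlPiPair_single_right] at h1
  exact (mul_eq_zero.1 h1).resolve_left (hc i)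

include hc in
lemma tlPiPair_right_nondeg (hB : ∀ i (y : P' i), (∀ x, B i x y = 0) → y = 0) (y : ∀ i, P' i)
    (h : ∀ x, tlPiPair c B x y = 0) : y = 0 := by
  funext i
  refine hB i (y i) (fun xi => ?_)
  have h1 := h (Pi.single i xi)
  rw [tlPiPair_single_left] at h1
  exact (mul_eq_zero.1 h1).resolve_left (hc i)

include hc in
/-- the orthogonal complement of a product of subspaces -/
lemma tlOrth_tlPiPair_pi (L : ∀ i, Submodule K (P i)) :
    tlOrth (tlPiPair c B) (Submodule.pi Set.univ L) =
      Submodule.pi Set.univ (fun i => tlOrth (B i) (L i)) := by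
  ext y
  rw [mem_tlOrth_iff, Submodule.mem_pi]
  constructor
  · intro h i _
    rw [mem_tlOrth_iff]
    intro xi hxi
    have h1 := h (Pi.single i xi) (by
      rw [Submodule.mem_pi]
      intro j _
      by_cases hj : j = i
      · subst hj
        rw [Pi.single_eq_same]
        exact hxi
      · rw [Pi.single_eq_of_ne hj]
        exact (L j).zero_mem)
    rw [tlPiPair_single_left] at h1
    exact (mul_eq_zero.1 h1).resolve_left (hc i)
  · intro h x hx
    rw [tlPiPair_apply]
    refine Finset.sum_eq_zero (fun i _ => ?_)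
    rw [(mem_tlOrth_iff (B i) (L i) (y i)).1 (h i (Set.mem_univ i)) (x i)
      ((Submodule.mem_pi.1 hx) i (Set.mem_univ i)), mul_zero]

/-- a product of subspaces is the product of the subspaces -/
def tlPiSubEquiv (L : ∀ i, Submodule K (P i)) :
    ↥(Submodule.pi Set.univ L) ≃ₗ[K] (∀ i, ↥(L i)) where
  toFun x i := ⟨x.1 i, (Submodule.mem_pi.1 x.2) i (Set.mem_univ i)⟩
  invFun y := ⟨fun i => (y i).1, Submodule.mem_pi.2 (fun i _ => (y i).2)⟩
  left_inv _ := rfl
  right_inv _ := rfl
  map_add' _ _ := rfl
  map_smul' _ _ := rfl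

lemma tl_finrank_pi [∀ i, FiniteDimensional K (P i)] (L : ∀ i, Submodule K (P i)) :
    finrank K ↥(Submodule.pi Set.univ L) = ∑ i, finrank K ↥(L i) := by
  rw [(tlPiSubEquiv L).finrank_eq, Module.finrank_pi_fintype]

end pi

end Fermat.Agent.TW
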