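import Fermat.Agent.Lib.TW.GW.MiddleRep
import Fermat.Agent.Lib.TW.GW.Count
import Fermat.Agent.Lib.TW.Local.LocalDuality

/-!
# P10 / G3 (Poitou–Tate middle), part 9 : the comparison of Selmer groups

`tl_gw_dim` : for local conditions `Lc q ≤ H¹_cont(G_q, M)`, `q ∈ S`,

`dim Sel_L(M) + dim H¹_S(M^*(1)) = dim Sel_{L^⊥}(M^*(1)) + dim Ш¹_S(M) + ∑_q dim Lc q`

(all inside the `S`-admissible classes; `L^⊥` for the `k`-bilinear local Tate pairings `tlPairK`).
-/

set_option autoImplicit false
set_option linter.unusedSectionVars false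
set_option linter.style.haveILetI false

open groupCohomology CategoryTheory ExtCitation Module

namespace Fermat.Agent.TW

open Fermat.Agent.CFT Fermat.Agent.CFT.Bridge Fermat.Agent.CFT.Duality
  Fermat.Agent.CFT.Duality.TowerModule Fermat.Agent.CFT.Duality.PTData Fermat.Agent.CFT.Global

noncomputable section

/-! ### The localisation map on admissible classes -/

section lam

variable {k : Type} [Field k] (S : Finset Nat.Primes) (M : Rep.{0} k GQ)

/-- the localisation map on `S`-admissible classes -/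
def tlLam : continuousH1S S M →ₗ[k] (∀ q : ↥S, locCont q.1 M) :=
  LinearMap.pi (fun q => (resAt q.1 M).restrict (fun _ hx => resAt_mem_locCont q.1 S M hx))

lemma tlLam_apply (x : continuousH1S S M) (q : ↥S) :
    tlLam S M x q = ⟨resAt q.1 M x, resAt_mem_locCont q.1 S M x.2⟩ := rfl

end lam

/-! ### Finiteness -/

section finite

variable (p : ℕ) [hp : Fact p.Prime] {k : Type} [Field k] [Algebra (ZMod p) k] [Finite k]
  (M : Rep.{0} k GQ) [FiniteDimensional k M.V]

include p in
/-- the continuous local classes are finite in number -/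
theorem tl_finite_locCont (L₀ : Level) (hM : TrivialOn M L₀) (q : Nat.Primes) :
    Finite (locCont q M) :=
  haveI := tlTowerOfLoc_isFinPTorsion p M L₀ hM q
  haveI := tlLoc_finite_hlim_one p q (towerOfLoc M L₀ hM q)
  Finite.of_equiv _ (tlBr M L₀ hM q).toEquiv

include p in
/-- the `S`-admissible classes are finite in number -/
theorem tl_finite_continuousH1S {S : Finset Nat.Primes} {L₀ : Level} {h₀ : L₀.IsS S}
    (d : PTData p S L₀ h₀) (hM : TrivialOn M L₀) : Finite (continuousH1S S M) :=
  haveI := d.finite_hlim_one_global (towerOf M L₀ hM)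
    (fun _ => show Finite M.V from Module.finite_of_finite k)
    (fun _ a => tl_nsmul_eq_zero_of_algebra p k (show M.V from a))
  Finite.of_equiv _ (tlGBridge1 M L₀ hM S h₀).toEquiv

end finite

/-! ### The global pairing -/

section pairing

variable (p : ℕ) [hp : Fact p.Prime] {k : Type} [Field k] [Algebra (ZMod p) k] [Finite k]
  (M : Rep.{0} k GQ) [FiniteDimensional k M.V] (dd : TlData p M)
  (S : Finset Nat.Primes) (hp2 : p ≠ 2) (hpS : pPrime p ∈ S)
  (hord : OrderInput p S) (hres : ResInput p S) (hinj : LocInjInput p S) (h₀ : dd.L₀.IsS S)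
  (u : ↥S → ℤ)

/-- the weighted sum of the `k`-bilinear local Tate pairings -/
def tlGPair : (∀ q : ↥S, locCont q.1 M) →ₗ[k] (∀ q : ↥S, locCont q.1 (tateDual p M)) →ₗ[k] k :=
  tlPiPair (fun q : ↥S => ((u q : ℤ) : k)) (fun q : ↥S => tlPairK p M dd q.1)

/-- the trace of the global pairing -/
lemma tlTr_tlGPair (X : ∀ q : ↥S, locCont q.1 M) (Y : ∀ q : ↥S, locCont q.1 (tateDual p M)) :
    tlTr p k (tlGPair p M dd S u X Y) = ∑ q : ↥S, u q • tlPairD p M dd q.1 (X q) (Y q) := by
  unfold tlGPair
  rw [tlPiPair_apply, map_sum]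
  refine Finset.sum_congr rfl (fun q _ => ?_)
  rw [← zsmul_eq_mul, map_zsmul, tlTr_tlPairK]

include p in
lemma tl_intCast_ne_zero {n : ℤ} (hn : IsCoprime n (p : ℤ)) : ((n : ℤ) : k) ≠ 0 := by
  intro h
  obtain ⟨a, b, hab⟩ := hn
  have h1 := congrArg (fun z : ℤ => (z : k)) hab
  have hp0 : ((p : ℤ) : k) = 0 := by
    have := tl_nsmul_eq_zero_of_algebra p k (1 : k)
    rw [nsmul_eq_mul, mul_one] at this
    rw [Int.cast_natCast]
    exact this
  simp only [Int.cast_add, Int.cast_mul, h, hp0, mul_zero, add_zero, Int.cast_one] at h1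
  exact zero_ne_one h1

variable (hu : ∀ q, IsCoprime (u q) (p : ℤ))
  (hspec : TlUnitSpec (tlPT p M dd S hp2 hpS hord hres hinj h₀)
    (tlCfF p M dd S hp2 hpS hord hres hinj h₀) u)

include hu in
lemma tlGPair_left_nondeg (X : ∀ q : ↥S, locCont q.1 M)
    (h : ∀ Y, tlGPair p M dd S u X Y = 0) : X = 0 :=
  tlPiPair_left_nondeg _ _ (fun q => tl_intCast_ne_zero p (hu q))
    (fun q x hx => tlPairK_left_nondeg p M dd q.1 x hx) X h

include hu in
lemma tlGPair_right_nondeg (Y : ∀ q : ↥S, locCont q.1 (tateDual p M))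
    (h : ∀ X, tlGPair p M dd S u X Y = 0) : Y = 0 :=
  tlPiPair_right_nondeg _ _ (fun q => tl_intCast_ne_zero p (hu q))
    (fun q y hy => tlPairK_right_nondeg p M dd q.1 y hy) Y h

include hspec in
/-- **reciprocity** -/
theorem tlGPair_lam_lam (x : continuousH1S S M) (y : continuousH1S S (tateDual p M)) :
    tlGPair p M dd S u (tlLam S M x) (tlLam S (tateDual p M) y) = 0 := by
  apply tl_eq_zero_of_tlTr_mul_eq_zero p
  intro a
  rw [← smul_eq_mul, ← LinearMap.smul_apply, ← map_smul, ← map_smul, tlTr_tlGPair]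
  exact (tl_ptMiddle_rep p M dd S hp2 hpS hord hres hinj h₀ u hspec
    (tlLam S (tateDual p M) y)).1 ⟨y, fun q => rfl⟩ (a • x)

include hspec in
/-- **Poitou–Tate, middle exactness** -/
theorem tlGPair_exact (Y : ∀ q : ↥S, locCont q.1 (tateDual p M))
    (h : ∀ x : continuousH1S S M, tlGPair p M dd S u (tlLam S M x) Y = 0) :
    Y ∈ LinearMap.range (tlLam S (tateDual p M)) := by
  obtain ⟨y₀, hy₀⟩ := (tl_ptMiddle_rep p M dd S hp2 hpS hord hres hinj h₀ u hspec Y).2
    (fun x => by
      have h1 := tlTr_tlGPair p M dd S u (tlLam S M x) Y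
      rw [h x, map_zero] at h1
      exact h1.symm)
  refine ⟨y₀, ?_⟩
  funext q
  exact Subtype.ext (hy₀ q)

/-- the dual of a finite-dimensional representation is finite-dimensional -/
instance tl_finiteDimensional_tateDual : FiniteDimensional k (tateDual p M).V :=
  inferInstanceAs (FiniteDimensional k (Module.Dual k M.V))

include hp2 hpS hord hres hinj h₀ in
/-- **the comparison of Selmer groups** -/
theorem tl_gw_dim (Lc : ∀ q : ↥S, Submodule k (locCont q.1 M)) :
    haveI := tl_finite_continuousH1S p M (tlPT p M dd S hp2 hpS hord hres hinj h₀) dd.hM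
    haveI := tl_finite_continuousH1S p (tateDual p M)
      (tlPT p M dd S hp2 hpS hord hres hinj h₀) dd.hM'
    finrank k ((Submodule.pi Set.univ Lc).comap (tlLam S M)) +
        finrank k (continuousH1S S (tateDual p M)) =
      finrank k ((Submodule.pi Set.univ
          (fun q : ↥S => tlOrth (tlPairK p M dd q.1) (Lc q))).comap (tlLam S (tateDual p M))) +
        finrank k (LinearMap.ker (tlLam S M)) + ∑ q : ↥S, finrank k (Lc q) := by
  classical
  haveI := tl_finite_continuousH1S p M (tlPT p M dd S hp2 hpS hord hres hinj h₀) dd.hM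
  haveI := tl_finite_continuousH1S p (tateDual p M)
    (tlPT p M dd S hp2 hpS hord hres hinj h₀) dd.hM'
  haveI : ∀ q : ↥S, Finite (locCont q.1 M) := fun q => tl_finite_locCont p M dd.L₀ dd.hM q.1
  haveI : ∀ q : ↥S, Finite (locCont q.1 (tateDual p M)) :=
    fun q => tl_finite_locCont p (tateDual p M) dd.L₀ dd.hM' q.1
  haveI : FiniteDimensional k (continuousH1S S M) := Module.Finite.of_finite
  haveI : FiniteDimensional k (continuousH1S S (tateDual p M)) := Module.Finite.of_finite
  haveI : ∀ q : ↥S, FiniteDimensional k (locCont q.1 M) := fun q => Module.Finite.of_finite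
  haveI : ∀ q : ↥S, FiniteDimensional k (locCont q.1 (tateDual p M)) :=
    fun q => Module.Finite.of_finite
  obtain ⟨u, hu, hspec⟩ := tl_exists_units (tlPT p M dd S hp2 hpS hord hres hinj h₀)
    (tlCfF p M dd S hp2 hpS hord hres hinj h₀)
  have h1 := tl_gw_count (tlGPair p M dd S u) (tlGPair_left_nondeg p M dd S u hu)
    (tlGPair_right_nondeg p M dd S u hu) (tlLam S M) (tlLam S (tateDual p M))
    (tlGPair_lam_lam p M dd S hp2 hpS hord hres hinj h₀ u hspec)
    (tlGPair_exact p M dd S hp2 hpS hord hres hinj h₀ u hspec) (Submodule.pi Set.univ Lc)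
  have h2 : tlOrth (tlGPair p M dd S u) (Submodule.pi Set.univ Lc) =
      Submodule.pi Set.univ (fun q : ↥S => tlOrth (tlPairK p M dd q.1) (Lc q)) :=
    tlOrth_tlPiPair_pi _ _ (fun q => tl_intCast_ne_zero p (hu q)) Lc
  rw [h2, tl_finrank_pi] at h1
  exact h1

end pairing

end

end Fermat.Agent.TW
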