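import Fermat.Agent.Lib.TW.GW.GlobBridge
import Fermat.Agent.Lib.TW.Local.LocalPairing

/-!
# P10 / G3 (Poitou–Tate middle), part 6 : the side of `M^*(1)`

* `tlTwS : M^*(1) → Hom(M, μ_p)` over the `S`-levels; it induces bijections on `ExtLim`;
* `tlPsiH1_locLimAt` : under `tlTwS` and the local comparisons `tlPsiH1`, the localisation map of
  `M^*(1)` is the localisation map of `Hom(M, μ_p)`.
-/

set_option autoImplicit false
set_option linter.unusedSectionVars false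
set_option linter.style.haveILetI false

open groupCohomology CategoryTheory ExtCitation

namespace Fermat.Agent.TW

open Fermat.Agent.CFT Fermat.Agent.CFT.Bridge Fermat.Agent.CFT.Duality
  Fermat.Agent.CFT.Duality.TowerModule

noncomputable section

variable (p : ℕ) [hp : Fact p.Prime] {k : Type} [Field k] [Algebra (ZMod p) k] [Finite k]
  (M : Rep.{0} k GQ) [FiniteDimensional k M.V] (χ : GQ →* kˣ)
  (hχ : ∀ σ, ((χ σ : kˣ) : k) = algebraMap (ZMod p) k ((cycloChar p σ : (ZMod p)ˣ) : ZMod p))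
  (L₀ : Level) (hM : TrivialOn M L₀) (hM' : TrivialOn (M.dualTwist χ) L₀)
  (hμ : HasMu p L₀) (ζ₀ : (muTow p L₀).C (baseLevel L₀)) (hζ₀ : ζ₀ ≠ 0)
  (S : Finset Nat.Primes) (h₀ : L₀.IsS S)

/-- `M^*(1) → Hom(M, μ_p)` over the `S`-levels -/
def tlTwS : (towerOfS (M.dualTwist χ) L₀ hM' S h₀).Hom
    (((towerOf M L₀ hM).homTo (muTow p L₀)).filter (isSPred S L₀) (isSPred_nonempty h₀)
      (isSPred_directed S L₀)) :=
  haveI := muTow_isCartesian hμ
  (tlTwHom p M χ hχ L₀ hM hM' (muTow p L₀) (muTow_card hμ) (tl_muTow_cyc p L₀) ζ₀).filter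
    (isSPred S L₀) (isSPred_nonempty h₀) (isSPred_directed S L₀)

include hζ₀ in
lemma tlTwS_isIso (j : (towerS S L₀ h₀).ι) :
    IsIso ((tlTwS p M χ hχ L₀ hM hM' hμ ζ₀ S h₀).f j) :=
  haveI := muTow_isCartesian hμ
  tlTwHom_isIso p M χ hχ L₀ hM hM' (muTow p L₀) (muTow_card hμ) (tl_muTow_cyc p L₀) ζ₀ hζ₀ j.1

include hζ₀ in
/-- `tlTwS` induces bijections on the cohomology in the limit -/
theorem tlTwS_bijective (r : ℕ) :
    Function.Bijective (ExtLim.mapRight (triv ℤ (towerS S L₀ h₀))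
      (tlTwS p M χ hχ L₀ hM hM' hμ ζ₀ S h₀) r) :=
  haveI : ∀ j, IsIso ((tlTwS p M χ hχ L₀ hM hM' hμ ζ₀ S h₀).f j) :=
    tlTwS_isIso p M χ hχ L₀ hM hM' hμ ζ₀ hζ₀ S h₀
  ExtLim.mapRight_bijective_of_isIso (triv ℤ (towerS S L₀ h₀))
    (tlTwS p M χ hχ L₀ hM hM' hμ ζ₀ S h₀) r

/-- **the localisation map of `M^*(1)` is the localisation map of `Hom(M, μ_p)`** -/
theorem tlPsiH1_locLimAt (q : Nat.Primes)
    (w : HLim (towerOfS (M.dualTwist χ) L₀ hM' S h₀) 1) :
    tlPsiH1 p M χ hχ L₀ hM hM' hμ ζ₀ hζ₀ q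
        (locLimAt (isSPred S L₀) (isSPred_nonempty h₀) (isSPred_directed S L₀)
          (decompFamily q L₀) (towerOf (M.dualTwist χ) L₀ hM') 1 w) =
      ExtLim.mapRight (triv ℤ (towerLoc q L₀))
        (homToResSub (towerOf M L₀ hM) (muTow p L₀) (decompFamily q L₀)) 1
        (locLimAt (isSPred S L₀) (isSPred_nonempty h₀) (isSPred_directed S L₀)
          (decompFamily q L₀) ((towerOf M L₀ hM).homTo (muTow p L₀)) 1
          (ExtLim.mapRight (triv ℤ (towerS S L₀ h₀))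
            (tlTwS p M χ hχ L₀ hM hM' hμ ζ₀ S h₀) 1 w)) := by
  haveI := muTow_isCartesian hμ
  rw [tlPsiH1_apply]
  unfold tlPsiHom tlTwS
  rw [ExtLim.mapRight_comp]
  congr 1
  exact (tl_locLimAt_mapRight (isSPred S L₀) (isSPred_nonempty h₀) (isSPred_directed S L₀)
    (decompFamily q L₀) (tlTwHom p M χ hχ L₀ hM hM' (muTow p L₀) (muTow_card hμ)
      (tl_muTow_cyc p L₀) ζ₀) 1 w).symm

end

end Fermat.Agent.TW
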