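import Fermat.Agent.Lib.CFT.Duality.D1Core
import Fermat.Agent.Lib.CFT.Duality.D2Inputs
import Fermat.Agent.Lib.CFT.Duality.TowerOf
import Fermat.Agent.Lib.TW.Interface

/-!
# P10 / G3 (Poitou–Tate middle), part 7 : `H⁰` of a cartesian tower module

* `tl_card_hlim_zero` : for a cartesian tower module `A` over a tower with bottom level `b`,
  `H⁰(A)` is in bijection with the invariants of `A_b` under `G_b`;
* the special cases of the tower modules of a Galois representation.
-/

set_option autoImplicit false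
set_option linter.unusedSectionVars false
set_option linter.style.haveILetI false

open groupCohomology CategoryTheory ExtCitation Abelian

namespace Fermat.Agent.TW

open Fermat.Agent.CFT Fermat.Agent.CFT.Duality Fermat.Agent.CFT.Duality.TowerModule

noncomputable section

section general

variable {k : Type} [CommRing k] {T : Tower} (A : TowerModule k T) [A.IsCartesian]
  {b : T.ι} (hb : ∀ l, b ≤ l)

/-- the invariants of the bottom level -/
abbrev tlInvB : Type := {a : (A.C b).V // ∀ g : T.G b, (A.C b).ρ g a = a}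

lemma tl_fix_aux (a : tlInvB A (b := b)) (g : T.G b) (c : k) :
    (A.C b).ρ g (LinearMap.toSpanSingleton k (A.C b).V a.1 c) =
      LinearMap.toSpanSingleton k (A.C b).V a.1 c := by
  rw [LinearMap.toSpanSingleton_apply, map_smul, a.2 g]

/-- the class in `H⁰(A)` of an invariant vector of the bottom level -/
def tlHZeroOf (a : tlInvB A (b := b)) : HLim A 0 :=
  ExtLim.of (triv k T) A 0 b (Ext.mk₀ (fixedHom (A.C b)
    (LinearMap.toSpanSingleton k (A.C b).V a.1) (tl_fix_aux A a)))

lemma tlHZeroOf_injective : Function.Injective (tlHZeroOf A (b := b)) := by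
  intro a a' haa'
  obtain ⟨l, hl, hl', h1⟩ := ExtLim.of_eq_of (triv k T) A 0 haa'
  obtain ⟨f₁, hf₁, hf₁c⟩ := extTrans_triv_mk₀ A hl (fixedHom (A.C b)
      (LinearMap.toSpanSingleton k (A.C b).V a.1) (tl_fix_aux A a)) 1
  obtain ⟨f₂, hf₂, hf₂c⟩ := extTrans_triv_mk₀ A hl' (fixedHom (A.C b)
      (LinearMap.toSpanSingleton k (A.C b).V a'.1) (tl_fix_aux A a')) 1
  rw [hf₁, hf₂] at h1
  have h2 : f₁ = f₂ := (Ext.mk₀_bijective _ _).1 h1
  have h3 : (A.φ hl).hom ((1 : k) • a.1) = (A.φ hl).hom ((1 : k) • a'.1) := by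
    have e1 := hf₁c 1
    have e2 := hf₂c 1
    rw [h2] at e1
    exact e1.symm.trans e2
  have h4 := A.φ_injective hl h3
  rw [one_smul, one_smul] at h4
  exact Subtype.ext h4

include hb in
lemma tlHZeroOf_surjective : Function.Surjective (tlHZeroOf A (b := b)) := by
  intro x
  obtain ⟨f, rfl⟩ := hzero_of_bottom_surjective A hb x
  refine ⟨⟨f.hom (1 : k), fun g => (Rep.hom_comm_apply f g (1 : k)).symm⟩, ?_⟩
  unfold tlHZeroOf
  congr 2
  apply trivial_hom_ext
  exact one_smul k _

include hb in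
/-- **`H⁰(A)` is the group of invariants of the bottom level** -/
theorem tl_card_hlim_zero : Nat.card (HLim A 0) = Nat.card (tlInvB A (b := b)) :=
  (Nat.card_congr (Equiv.ofBijective _
    ⟨tlHZeroOf_injective A, tlHZeroOf_surjective A hb⟩)).symm

end general

/-! ### The tower modules of a Galois representation -/

section rep

variable {k : Type} [CommRing k] (M : Rep.{0} k GQ) (L₀ : Level) (hM : TrivialOn M L₀)
  (S : Finset Nat.Primes) (h₀ : L₀.IsS S)

/-- **`H⁰` of the global tower module is `M^{G_ℚ}`** -/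
theorem tl_card_hlim_zero_glob :
    Nat.card (HLim (towerOfS M L₀ hM S h₀) 0) = Nat.card M.ρ.invariants := by
  rw [tl_card_hlim_zero (towerOfS M L₀ hM S h₀) (b := botS S L₀ h₀) botS_le]
  refine Nat.card_congr ⟨fun a => ⟨(a.1 : M.V), fun σ => a.2 (L₀.proj σ)⟩,
    fun a => ⟨(a.1 : M.V), fun g => ?_⟩, fun a => rfl, fun a => rfl⟩
  obtain ⟨σ, rfl⟩ := L₀.proj_surjective g
  exact a.2 σ

/-- **`H⁰` of the local tower module (over the `S`-levels) is `M^{G_q}`** -/
theorem tl_card_hlim_zero_loc (q : Nat.Primes) :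
    Nat.card (HLim (PTData.AqS S h₀ q (towerOf M L₀ hM)) 0) =
      Nat.card (Rep.res (primeLocalToGlobal q) M).ρ.invariants := by
  rw [tl_card_hlim_zero (PTData.AqS S h₀ q (towerOf M L₀ hM)) (b := botLocS S q L₀ h₀)
    (botLocS_le q)]
  refine Nat.card_congr ⟨fun a => ⟨(a.1 : M.V), fun τ => ?_⟩,
    fun a => ⟨(a.1 : M.V), fun g => ?_⟩, fun a => rfl, fun a => rfl⟩
  · exact a.2 ⟨L₀.proj (primeLocalToGlobal q τ), ⟨primeLocalToGlobal q τ, ⟨τ, rfl⟩, rfl⟩⟩
  · obtain ⟨g, σ, ⟨τ, rfl⟩, rfl⟩ := g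
    exact a.2 τ

end rep

end

end Fermat.Agent.TW
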