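import Fermat.Agent.Lib.TW.GW.Dim
import Fermat.Agent.Lib.TW.GW.HZero
import Fermat.Agent.Lib.TW.Euler.Input
import Fermat.Agent.Lib.TW.Local.Arch

/-!
# P10 / G3 (Poitou–Tate middle), part 10 : the global Euler characteristic formula for `M`

`TlEulerFormula d` : the statement of the global Euler characteristic formula (G4) in tower form.
`tl_euler_dim` : its translation into dimensions of the cohomology groups of a Galois representation:

`h¹_S(M^*(1)) + h⁰(M) = dim Ш¹_S(M) + h⁰(M^*(1)) + ∑_{q ∈ S} h⁰(G_q, M) + h⁰(G_ℝ, M)`.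
-/

set_option autoImplicit false
set_option linter.unusedSectionVars false
set_option linter.style.haveILetI false

open groupCohomology CategoryTheory ExtCitation Module

namespace Fermat.Agent.TW

open Fermat.Agent.CFT Fermat.Agent.CFT.Bridge Fermat.Agent.CFT.Duality
  Fermat.Agent.CFT.Duality.TowerModule Fermat.Agent.CFT.Duality.PTData Fermat.Agent.CFT.Global

noncomputable section

/-- **the global Euler characteristic formula** (Tate), tower form, for the data `d` -/
def TlEulerFormula {p : ℕ} [Fact p.Prime] {S : Finset Nat.Primes} {L₀ : Level} {h₀ : L₀.IsS S}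
    (d : PTData p S L₀ h₀) : Prop :=
  ∀ (A : TowerModule ℤ (levelTower L₀)) [A.IsCartesian], (∀ j, Finite (A.C j)) →
    (∀ j (x : A.C j), p • x = 0) →
    Nat.card (HLim ((PTData.AS S h₀ A).homTo d.μS) 1) * Nat.card (HLim (PTData.AS S h₀ A) 0) =
      Nat.card (ShaLim (isSPred S L₀) (isSPred_nonempty h₀) (isSPred_directed S L₀)
          (fun q : ↥S => decompFamily q.1 L₀) A 1) *
        Nat.card (HLim ((PTData.AS S h₀ A).homTo d.μS) 0) *
        (∏ q : ↥S, Nat.card (HLim (PTData.AqS S h₀ q.1 A) 0)) *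
        Nat.card {x : (A.C (baseLevel L₀)).V // (A.C (baseLevel L₀)).ρ (ecCbar L₀) x = x}

variable (p : ℕ) [hp : Fact p.Prime] {k : Type} [Field k] [Algebra (ZMod p) k] [Finite k]
  (M : Rep.{0} k GQ) [FiniteDimensional k M.V] (dd : TlData p M)
  (S : Finset Nat.Primes) (hp2 : p ≠ 2) (hpS : pPrime p ∈ S)
  (hord : OrderInput p S) (hres : ResInput p S) (hinj : LocInjInput p S) (h₀ : dd.L₀.IsS S)

/-- (E1) -/
lemma tl_card_E1 :
    Nat.card (HLim ((PTData.AS S h₀ (towerOf M dd.L₀ dd.hM)).homTo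
      (tlPT p M dd S hp2 hpS hord hres hinj h₀).μS) 1) =
      Nat.card (continuousH1S S (tateDual p M)) := by
  refine (Nat.card_congr ?_).symm
  exact (tlGBridge1 (tateDual p M) dd.L₀ dd.hM' S h₀).symm.toEquiv.trans
    (Equiv.ofBijective _ (tlTwS_bijective p M (cycloK p k) (tl_cycloK_coe p) dd.L₀ dd.hM dd.hM'
      dd.hμ dd.ζ₀ dd.hζ₀ S h₀ 1))

/-- (E4) -/
lemma tl_card_E4 :
    Nat.card (HLim ((PTData.AS S h₀ (towerOf M dd.L₀ dd.hM)).homTo
      (tlPT p M dd S hp2 hpS hord hres hinj h₀).μS) 0) =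
      Nat.card (tateDual p M).ρ.invariants := by
  rw [← tl_card_hlim_zero_glob (tateDual p M) dd.L₀ dd.hM' S h₀]
  refine (Nat.card_congr ?_).symm
  exact Equiv.ofBijective _ (tlTwS_bijective p M (cycloK p k) (tl_cycloK_coe p) dd.L₀ dd.hM dd.hM'
      dd.hμ dd.ζ₀ dd.hζ₀ S h₀ 0)

/-- (E3) : `Ш¹` -/
lemma tl_card_E3 :
    Nat.card (ShaLim (isSPred S dd.L₀) (isSPred_nonempty h₀) (isSPred_directed S dd.L₀)
      (fun q : ↥S => decompFamily q.1 dd.L₀) (towerOf M dd.L₀ dd.hM) 1) =
      Nat.card (LinearMap.ker (tlLam S M)) := by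
  refine Nat.card_congr ((tlGBridge1 M dd.L₀ dd.hM S h₀).toEquiv.subtypeEquiv (fun z => ?_))
  rw [LinearMap.mem_ker]
  change z ∈ ShaLim _ _ _ _ _ _ ↔ _
  simp only [ShaLim, AddSubgroup.mem_iInf, AddMonoidHom.mem_ker]
  constructor
  · intro h
    funext q
    apply Subtype.ext
    have h1 := tlBridge1_locLimAt M dd.L₀ dd.hM S h₀ q.1 z
    have h2 : locLimAt (isSPred S dd.L₀) (isSPred_nonempty h₀) (isSPred_directed S dd.L₀)
        (decompFamily q.1 dd.L₀) (towerOf M dd.L₀ dd.hM) 1 z = 0 := h q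
    rw [h2, map_zero] at h1
    exact h1.symm
  · intro h q
    have h1 := tlBridge1_locLimAt M dd.L₀ dd.hM S h₀ q.1 z
    have h2 : resAt q.1 M ((tlGBridge1 M dd.L₀ dd.hM S h₀ z : continuousH1S S M) : H1 M) = 0 :=
      congrArg Subtype.val (congrFun h q)
    have h3 : ((tlBr M dd.L₀ dd.hM q.1
        (locLimAt (isSPred S dd.L₀) (isSPred_nonempty h₀) (isSPred_directed S dd.L₀)
          (decompFamily q.1 dd.L₀) (towerOf M dd.L₀ dd.hM) 1 z) : locCont q.1 M) :
        H1 (locAt q.1 M)) = 0 := h1.trans h2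
    exact (AddEquiv.map_eq_zero_iff (tlBr M dd.L₀ dd.hM q.1)).1 (Subtype.ext h3)

/-- (E6) : the archimedean term -/
lemma tl_card_E6 {k : Type} [Field k] (M : Rep.{0} k GQ) (L₀ : Level) (hM : TrivialOn M L₀) :
    Nat.card {x : ((towerOf M L₀ hM).C (baseLevel L₀)).V //
      ((towerOf M L₀ hM).C (baseLevel L₀)).ρ (ecCbar L₀) x = x} =
      Nat.card (Rep.res archimedeanLoc M).ρ.invariants := by
  refine Nat.card_congr ⟨fun a => ⟨(a.1 : M.V), fun g => ?_⟩, fun a => ⟨(a.1 : M.V), ?_⟩,
    fun a => rfl, fun a => rfl⟩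
  · rcases tw_arch_cases g with rfl | rfl
    · rw [map_one]
      rfl
    · exact a.2
  · exact a.2 archimedeanGen

include hp2 hpS hord hres hinj h₀ in
/-- **the global Euler characteristic formula in terms of dimensions** -/
theorem tl_euler_dim (hE : TlEulerFormula (tlPT p M dd S hp2 hpS hord hres hinj h₀)) :
    finrank k (continuousH1S S (tateDual p M)) + finrank k M.ρ.invariants =
      finrank k (LinearMap.ker (tlLam S M)) + finrank k (tateDual p M).ρ.invariants +
        ∑ q : ↥S, finrank k (locAt q.1 M).ρ.invariants +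
        finrank k (Rep.res archimedeanLoc M).ρ.invariants := by
  haveI := tl_finite_continuousH1S p M (tlPT p M dd S hp2 hpS hord hres hinj h₀) dd.hM
  haveI := tl_finite_continuousH1S p (tateDual p M)
    (tlPT p M dd S hp2 hpS hord hres hinj h₀) dd.hM'
  haveI : FiniteDimensional k (continuousH1S S M) := Module.Finite.of_finite
  haveI : FiniteDimensional k (continuousH1S S (tateDual p M)) := Module.Finite.of_finite
  have hE' := hE (towerOf M dd.L₀ dd.hM) (fun j => tl_towerOf_finite p M dd j)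
    (fun j a => tl_towerOf_ptors p M dd j a)
  rw [tl_card_E1 p M dd S hp2 hpS hord hres hinj h₀, tl_card_E4 p M dd S hp2 hpS hord hres hinj h₀,
    tl_card_E3 p M dd S h₀, tl_card_E6 M dd.L₀ dd.hM,
    tl_card_hlim_zero_glob M dd.L₀ dd.hM S h₀,
    Finset.prod_congr rfl (fun q _ => tl_card_hlim_zero_loc M dd.L₀ dd.hM S h₀ q.1)] at hE'
  have hc : 2 ≤ Nat.card k := by
    haveI : Nontrivial k := inferInstance
    exact Finite.one_lt_card
  rw [Module.natCard_eq_pow_finrank (K := k) (V := continuousH1S S (tateDual p M)),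
    Module.natCard_eq_pow_finrank (K := k) (V := M.ρ.invariants),
    Module.natCard_eq_pow_finrank (K := k) (V := LinearMap.ker (tlLam S M)),
    Module.natCard_eq_pow_finrank (K := k) (V := (tateDual p M).ρ.invariants),
    Module.natCard_eq_pow_finrank (K := k) (V := (Rep.res archimedeanLoc M).ρ.invariants),
    Finset.prod_congr rfl (fun q _ => Module.natCard_eq_pow_finrank (K := k)
      (V := (Rep.res (primeLocalToGlobal q.1) M).ρ.invariants)),
    Finset.prod_pow_eq_pow_sum, ← pow_add, ← pow_add, ← pow_add, ← pow_add] at hE'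
  exact Nat.pow_right_injective hc hE'

end

end Fermat.Agent.TW
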