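import Fermat.Agent.Lib.TW.GW.Euler
import Fermat.Agent.Lib.TW.DualSelmer

/-!
# P10 / G3 : WILES' FORMULA (Greenberg–Wiles) FOR THE PAIRINGS `tlTP`

`tl_contractGW_of_euler` : the contract (C-GW) `ContractGW p M (tateDual p M) (tlTP p M)` (with
EQUALITY in Wiles' formula) for every finite-dimensional smooth `M` over a finite field `k` of
characteristic `p ≠ 2`, from the global Euler characteristic formula `TlEulerFormula` (G4) for the
Poitou–Tate data over the level of `tlTP`.
-/

set_option autoImplicit false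
set_option linter.unusedSectionVars false
set_option linter.style.haveILetI false

open groupCohomology CategoryTheory ExtCitation Module

namespace Fermat.Agent.TW

open Fermat.Agent.CFT Fermat.Agent.CFT.Bridge Fermat.Agent.CFT.Duality
  Fermat.Agent.CFT.Duality.TowerModule Fermat.Agent.CFT.Duality.PTData Fermat.Agent.CFT.Global

noncomputable section

lemma tl_sum_extArith (S' : Finset Nat.Primes) (f : extArithIndex S' → ℕ) :
    ∑ v, f v = f (Sum.inl ()) + ∑ q : ↥S', f (Sum.inr q) := by
  have h0 := Fintype.sum_sum_type (α₁ := Unit) (α₂ := ↥S') f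
  have h1 : ∑ a₁ : Unit, f (Sum.inl a₁) = f (Sum.inl ()) := by
    rw [Finset.univ_unique, Finset.sum_singleton]
  rw [h1] at h0
  exact h0

variable (p : ℕ) [hp : Fact p.Prime] {k : Type} [Field k] [Algebra (ZMod p) k] [Finite k]
  (M : Rep.{0} k GQ) [FiniteDimensional k M.V]

include p in
lemma tl_two_ne_zero (hp2 : p ≠ 2) : (2 : k) ≠ 0 := by
  have h : IsCoprime (2 : ℤ) (p : ℤ) := by
    have h1 : Nat.Coprime 2 p := (Nat.coprime_primes Nat.prime_two hp.out).2 (Ne.symm hp2)
    exact_mod_cast Nat.isCoprime_iff_coprime.2 h1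
  have := tl_intCast_ne_zero p (k := k) h
  exact_mod_cast this

section selmer

variable (S : Finset Nat.Primes) (L : LocalConditions M) (hL : ∀ q, L q ≤ locCont q M)

/-- the local conditions inside the continuous classes -/
def tlLc (q : ↥S) : Submodule k (locCont q.1 M) := (L q.1).comap (locCont q.1 M).subtype

include hL in
lemma tl_finrank_tlLc (q : ↥S) : finrank k (tlLc M S L q) = finrank k (L q.1) :=
  (Submodule.comapSubtypeEquivOfLe (hL q.1)).finrank_eq

include p in
/-- the Selmer group of `L`, inside the admissible classes -/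
lemma tl_selmerAdm_eq (hp2 : p ≠ 2) :
    selmerAdm (extArithLoc S) M (selmerStruct S L) (continuousH1S S M) =
      ((Submodule.pi Set.univ (tlLc M S L)).comap (tlLam S M)).map
        (continuousH1S S M).subtype := by
  ext x
  rw [mem_selmerAdm_iff, Submodule.mem_map]
  constructor
  · rintro ⟨h1, h2⟩
    refine ⟨⟨x, h2⟩, ?_, rfl⟩
    rw [Submodule.mem_comap, Submodule.mem_pi]
    intro q _
    exact h1 (Sum.inr q)
  · rintro ⟨x', hx', rfl⟩
    refine ⟨?_, x'.2⟩
    rintro (v | q)
    · have h0 : (locRes (extArithLoc S) M (Sum.inl v)).hom ((continuousH1S S M).subtype x') = 0 :=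
        tw_arch_H1_eq_zero (tl_two_ne_zero p hp2) _ _
      exact h0 ▸ Submodule.zero_mem _
    · rw [Submodule.mem_comap, Submodule.mem_pi] at hx'
      exact hx' q (Set.mem_univ q)

variable (hsm : IsSmoothRep M)

include hL in
/-- the dual Selmer group of `L`, inside the admissible classes -/
lemma tl_dualSelmerAdm_eq :
    selmerAdm (extArithLoc S) (tateDual p M)
        (dualConditions (extArithLoc S) M (tateDual p M) (pairingOf S (tlTP p M))
          (selmerStruct S L)) (continuousH1S S (tateDual p M)) =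
      ((Submodule.pi Set.univ (fun q : ↥S => tlOrth (tlPairK p M (tlDataOf p M hsm) q.1)
          (tlLc M S L q))).comap (tlLam S (tateDual p M))).map
        (continuousH1S S (tateDual p M)).subtype := by
  ext y
  have h0 := mem_dualSelmerGroup_iff S (tlTP p M) L y
  unfold dualSelmerGroup at h0
  rw [h0, Submodule.mem_map]
  constructor
  · rintro ⟨h1, h2⟩
    refine ⟨⟨y, h1⟩, ?_, rfl⟩
    rw [Submodule.mem_comap, Submodule.mem_pi]
    intro q _
    rw [mem_tlOrth_iff]
    intro x hx
    have h3 := h2 q.1 q.2 x.1 hx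
    rw [tlTP_apply_of_mem p M hsm q.1 x.2 (resAt_mem_locCont q.1 S (tateDual p M) h1)] at h3
    exact h3
  · rintro ⟨y', hy', rfl⟩
    refine ⟨y'.2, fun q hq x hx => ?_⟩
    rw [Submodule.mem_comap, Submodule.mem_pi] at hy'
    have h1 := (mem_tlOrth_iff _ _ _).1 (hy' ⟨q, hq⟩ (Set.mem_univ _)) ⟨x, hL q hx⟩ hx
    exact (tlTP_apply_of_mem p M hsm q (hL q hx)
      (resAt_mem_locCont q S (tateDual p M) y'.2)).trans h1

end selmer

/-! ### The main theorem -/

section main

variable (hsm : IsSmoothRep M) (hp2 : p ≠ 2)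

/-- **WILES' FORMULA (C-GW)** for the pairings `tlTP`, from the global Euler characteristic
formula over the level of `tlTP`. -/
theorem tl_contractGW_of_euler
    (hin : ∀ S : Finset Nat.Primes, pPrime p ∈ S →
      OrderInput p S ∧ ResInput p S ∧ LocInjInput p S)
    (hE : ∀ (S : Finset Nat.Primes) (hpS : pPrime p ∈ S) (h₀ : (tlDataOf p M hsm).L₀.IsS S),
      TlEulerFormula (tlPT p M (tlDataOf p M hsm) S hp2 hpS (hin S hpS).1 (hin S hpS).2.1
        (hin S hpS).2.2 h₀)) :
    ContractGW p M (tateDual p M) (tlTP p M) := by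
  intro S hpS hur L hL
  have h₀ : (tlDataOf p M hsm).L₀.IsS S := (tlDataOf p M hsm).hS S hpS hur
  obtain ⟨hord, hres, hinj⟩ := hin S hpS
  have hE' : TlEulerFormula (tlPT p M (tlDataOf p M hsm) S hp2 hpS hord hres hinj h₀) :=
    hE S hpS h₀
  haveI := tl_finite_continuousH1S p M
    (tlPT p M (tlDataOf p M hsm) S hp2 hpS hord hres hinj h₀) (tlDataOf p M hsm).hM
  haveI := tl_finite_continuousH1S p (tateDual p M)
    (tlPT p M (tlDataOf p M hsm) S hp2 hpS hord hres hinj h₀) (tlDataOf p M hsm).hM'
  haveI : ∀ q : Nat.Primes, Finite (locCont q M) :=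
    fun q => tl_finite_locCont p M (tlDataOf p M hsm).L₀ (tlDataOf p M hsm).hM q
  haveI : FiniteDimensional k (continuousH1S S M) := Module.Finite.of_finite
  haveI : FiniteDimensional k (continuousH1S S (tateDual p M)) := Module.Finite.of_finite
  haveI : ∀ q : Nat.Primes, FiniteDimensional k (locCont q M) := fun q => Module.Finite.of_finite
  refine ⟨inferInstance, inferInstance, ?_, ?_⟩
  · rintro (v | q)
    · exact inferInstanceAs (FiniteDimensional k
        (⊥ : Submodule k (H1 (Rep.res (extArithLoc S (Sum.inl v)) M))))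
    · haveI : FiniteDimensional k (locCont q.1 M) := Module.Finite.of_finite
      change FiniteDimensional k (L q.1)
      exact Submodule.finiteDimensional_of_le (hL q.1)
  · unfold greenbergWilesLeAdm
    rw [tl_selmerAdm_eq p M S L hp2, tl_dualSelmerAdm_eq p M S L hL hsm,
      Submodule.finrank_map_subtype_eq, Submodule.finrank_map_subtype_eq,
      tl_sum_extArith S (fun v => finrank k (Rep.res (extArithLoc S v) M).ρ.invariants),
      tl_sum_extArith S (fun v => finrank k (selmerStruct S L v))]
    have h1 := tl_gw_dim p M (tlDataOf p M hsm) S hp2 hpS hord hres hinj h₀ (tlLc M S L)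
    have h2 := tl_euler_dim p M (tlDataOf p M hsm) S hp2 hpS hord hres hinj h₀ hE'
    have h3 : ∑ q : ↥S, finrank k (tlLc M S L q) = ∑ q : ↥S, finrank k (L q.1) :=
      Finset.sum_congr rfl (fun q _ => tl_finrank_tlLc M S L hL q)
    have h4 : finrank k (selmerStruct S L (Sum.inl ())) = 0 := finrank_bot _ _
    have h5 : ∑ q : ↥S, finrank k (selmerStruct S L (Sum.inr q)) =
        ∑ q : ↥S, finrank k (L q.1) := rfl
    have h6 : ∑ q : ↥S, finrank k (Rep.res (extArithLoc S (Sum.inr q)) M).ρ.invariants =
        ∑ q : ↥S, finrank k (locAt q.1 M).ρ.invariants := rfl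
    have h7 : finrank k (Rep.res (extArithLoc S (Sum.inl ())) M).ρ.invariants =
        finrank k (Rep.res archimedeanLoc M).ρ.invariants := rfl
    rw [h3] at h1
    rw [h4, h5, h6, h7]
    omega

end main

end

end Fermat.Agent.TW
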