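import Fermat.Agent.Lib.TW.Local.H1Bridge
import Fermat.Agent.Lib.CFT.Duality.TowerMorLoc

/-!
# P10 / G3 (Poitou–Tate middle), part 4 : `H¹` of the global tower module is `continuousH1S S M`

For `M : Rep k G_ℚ` trivial on `Gal(ℚ̄/L₀)`, `L₀` unramified outside `S` :

* `tlGlobContEquiv : HS M S 1 ≃ₗ[k] continuousH1S S M`;
* `tlGBridge1 : HLim (towerOfS M L₀ hM S h₀) 1 ≃+ continuousH1S S M`;
* `tlBridge1_locLimAt` : the localisation map `locLimAt` of the tower modules corresponds to the
  restriction `H¹(G_ℚ, M) → H¹(G_q, M)`;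
* `tl_locLimAt_mapRight` : the localisation maps are natural in the tower module.
-/

set_option autoImplicit false
set_option linter.unusedSectionVars false
set_option linter.style.haveILetI false

open groupCohomology CategoryTheory ExtCitation

namespace Fermat.Agent.TW

open Fermat.Agent.CFT Fermat.Agent.CFT.Bridge Fermat.Agent.CFT.Duality
  Fermat.Agent.CFT.Duality.TowerModule

noncomputable section

/-! ### Naturality of the localisation maps in the tower module -/

section natural

variable {k : Type} [CommRing k] {T : Tower} (P : T.ι → Prop) (hne : ∃ i, P i)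
  (hdir : ∀ i j, P i → P j → ∃ l, P l ∧ i ≤ l ∧ j ≤ l) (D : T.SubgroupFamily)
  {B B' : TowerModule k T} (F : B.Hom B')

/-- the localisation maps are natural in the tower module -/
theorem tl_locLimAt_mapRight (n : ℕ) (w : HLim (B.filter P hne hdir) n) :
    locLimAt P hne hdir D B' n
        (ExtLim.mapRight (triv k (T.filter P hne hdir)) (F.filter P hne hdir) n w) =
      ExtLim.mapRight (triv k (T.subTower D)) (F.resSub D) n (locLimAt P hne hdir D B n w) := by
  rw [locLimAt_eq_pull, locLimAt_eq_pull, ExtLim.pull_mapRight, ExtLim.mapRight_pull]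
  exact ExtLim.pull_congr _ _ _ _ (fun _ _ => rfl) (fun _ _ => rfl) n w

end natural

variable {k : Type} [CommRing k]

/-! ### The continuous classes unramified outside `S` -/

section cont

variable (M : Rep.{0} k GQ) (S : Finset Nat.Primes)

/-- **the classes of `H¹(G_ℚ, M)` which are constant modulo an `S`-level are the direct limit
`HS M S 1`** -/
def tlGlobContEquiv [Nonempty (LevelS M S)] : HS M S 1 ≃ₗ[k] continuousH1S S M :=
  LinearEquiv.ofBijective
    ((compH1 M S).codRestrict (continuousH1S S M) (compH1_mem M S))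
    ⟨fun x y hxy => compH1_injective M S (congrArg Subtype.val hxy),
     fun y => by
      obtain ⟨x, hx⟩ := exists_compH1_eq M S y.2
      exact ⟨x, Subtype.ext hx⟩⟩

@[simp] lemma tlGlobContEquiv_coe [Nonempty (LevelS M S)] (x : HS M S 1) :
    ((tlGlobContEquiv M S x : continuousH1S S M) : H1 M) = compH1 M S x := rfl

end cont

/-! ### The bridge -/

section bridge

variable (M : Rep.{0} k GQ) (L₀ : Level) (hM : TrivialOn M L₀) (S : Finset Nat.Primes)
  (h₀ : L₀.IsS S)

include hM h₀ in
lemma tl_nonempty_levelS : Nonempty (LevelS M S) := ⟨⟨L₀, h₀, hM⟩⟩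

/-- **`H¹` of the global tower module of `M` is `continuousH1S S M`** -/
def tlGBridge1 : HLim (towerOfS M L₀ hM S h₀) 1 ≃+ continuousH1S S M :=
  haveI := tl_nonempty_levelS M L₀ hM S h₀
  (hlimEquivCohLim (towerOfS M L₀ hM S h₀) 1).trans
    ((cohLimGlobEquiv M L₀ hM S h₀ intIso₁).trans (tlGlobContEquiv M S).toAddEquiv)

lemma tlGBridge1_coe (x : HLim (towerOfS M L₀ hM S h₀) 1) :
    ((tlGBridge1 M L₀ hM S h₀ x : continuousH1S S M) : H1 M) =
      compH1 M S (cohLimGlobEquiv M L₀ hM S h₀ intIso₁
        (hlimEquivCohLim (towerOfS M L₀ hM S h₀) 1 x)) := rfl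

lemma tlBridge1_coe (q : Nat.Primes) (x : HLim (towerOfLoc M L₀ hM q) 1) :
    ((tlBridge1 M L₀ hM q x : continuousH1 (primeLocalToGlobal q) (locRep M q)) :
      H1 (locRep M q)) =
      compLocH1 M q (cohLimLocEquiv M L₀ hM q intIso₁
        (hlimEquivCohLim (towerOfLoc M L₀ hM q) 1 x)) := rfl

/-- **the localisation maps correspond to the restriction maps** -/
theorem tlBridge1_locLimAt (q : Nat.Primes) (x : HLim (towerOfS M L₀ hM S h₀) 1) :
    ((tlBridge1 M L₀ hM q
        (locLimAt (isSPred S L₀) (isSPred_nonempty h₀) (isSPred_directed S L₀)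
          (decompFamily q L₀) (towerOf M L₀ hM) 1 x) :
      continuousH1 (primeLocalToGlobal q) (locRep M q)) : H1 (locRep M q)) =
      (groupCohomology.map (primeLocalToGlobal q) (𝟙 (locRep M q)) 1).hom
        ((tlGBridge1 M L₀ hM S h₀ x : continuousH1S S M) : H1 M) := by
  haveI := tl_nonempty_levelS M L₀ hM S h₀
  rw [tlBridge1_coe, tlGBridge1_coe, hlimEquivCohLim_locLimAt, cohLimLocEquiv_cohLoc,
    compLocH1_locMap]

end bridge

end

end Fermat.Agent.TW
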