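import Fermat.Agent.Lib.CFT.Duality.ExtOne
import Fermat.Agent.Lib.CFT.Duality.ExtLim
import Fermat.Agent.Lib.CFT.Duality.DualTwistTower
import Fermat.Agent.Lib.CFT.Duality.Rebase

/-!
# P10 / G3 (Poitou–Tate middle), part 1 : inflation is surjective on `Ext¹(A, C)` (Hilbert 90)

For a surjection `π : G → H` with kernel `N`, `A` inflated from `H` and killed by `p`, `B` with
Galois descent (`B₀ ≃ B^N`) and `H¹(N, B)[p] = 0`, every class in `Ext¹_G(A, B)` is the inflation of
a class in `Ext¹_H(A₀, B₀)`: take `N`-invariants of an extension.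

* `tlKInvRep` : the `H`-representation on the `N`-invariants;
* `tl_extPull_one_surjective` : the single-level statement;
* `tl_extTrans_one_surjective`, `tl_extLim_of_bot_surjective` : the tower statements.
-/

set_option autoImplicit false
set_option linter.unusedSectionVars false
set_option linter.style.haveILetI false

open CategoryTheory Abelian groupCohomology

namespace Fermat.Agent.TW

open Fermat.Agent.CFT Fermat.Agent.CFT.Duality Fermat.Agent.CFT.Duality.TowerModule

noncomputable section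

section single

variable {k G H : Type} [CommRing k] [Group G] [Group H] (π : G →* H)

/-- the invariants under `ker π` -/
def tlKInv (X : Rep.{0} k G) : Submodule k X.V where
  carrier := {x | ∀ g : G, π g = 1 → X.ρ g x = x}
  add_mem' := by
    intro a b ha hb g hg
    rw [map_add, ha g hg, hb g hg]
  zero_mem' := by
    intro g _
    exact map_zero _
  smul_mem' := by
    intro c x hx g hg
    rw [map_smul, hx g hg]

lemma tl_mem_kInv {X : Rep.{0} k G} {x : X.V} :
    x ∈ tlKInv π X ↔ ∀ g : G, π g = 1 → X.ρ g x = x := Iff.rfl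

lemma tl_ρ_mul_apply (X : Rep.{0} k G) (g g' : G) (x : X.V) :
    X.ρ (g * g') x = X.ρ g (X.ρ g' x) := by
  rw [map_mul]
  rfl

lemma tlKInv_ρ_mem (X : Rep.{0} k G) (g : G) {x : X.V} (hx : x ∈ tlKInv π X) :
    X.ρ g x ∈ tlKInv π X := by
  intro n hn
  have h1 : X.ρ n (X.ρ g x) = X.ρ g (X.ρ (g⁻¹ * n * g) x) := by
    rw [← tl_ρ_mul_apply, ← tl_ρ_mul_apply]
    congr 2
    group
  rw [h1, hx _ (by rw [map_mul, map_mul, hn, map_inv, mul_one, inv_mul_cancel])]

lemma tlKInv_ρ_congr (X : Rep.{0} k G) {g g' : G} (h : π g = π g') {x : X.V}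
    (hx : x ∈ tlKInv π X) : X.ρ g x = X.ρ g' x := by
  have h1 : X.ρ g' x = X.ρ g (X.ρ (g⁻¹ * g') x) := by
    rw [← tl_ρ_mul_apply, mul_inv_cancel_left]
  rw [h1, hx (g⁻¹ * g') (by rw [map_mul, map_inv, h, inv_mul_cancel])]

variable (hπ : Function.Surjective π)

/-- the action of `H` on the `ker π`-invariants -/
def tlKInvRepn (X : Rep.{0} k G) : Representation k H (tlKInv π X) where
  toFun h := (X.ρ (Function.surjInv hπ h)).restrict (fun _ hx => tlKInv_ρ_mem π X _ hx)
  map_one' := by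
    ext x
    exact x.2 _ (Function.surjInv_eq hπ 1)
  map_mul' h h' := by
    ext x
    change X.ρ (Function.surjInv hπ (h * h')) x.1 =
      X.ρ (Function.surjInv hπ h) (X.ρ (Function.surjInv hπ h') x.1)
    rw [← tl_ρ_mul_apply]
    refine tlKInv_ρ_congr π X ?_ x.2
    rw [map_mul, Function.surjInv_eq hπ, Function.surjInv_eq hπ, Function.surjInv_eq hπ]

/-- the `ker π`-invariants as a representation of `H` -/
def tlKInvRep (X : Rep.{0} k G) : Rep.{0} k H := Rep.of (tlKInvRepn π hπ X)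

lemma tlKInvRep_ρ_coe (X : Rep.{0} k G) (g : G) (x : tlKInv π X) :
    (show tlKInv π X from (tlKInvRep π hπ X).ρ (π g) x).1 = X.ρ g x.1 :=
  tlKInv_ρ_congr π X (Function.surjInv_eq hπ (π g)) x.2

/-- the inclusion of the invariants -/
def tlKInvIncl (X : Rep.{0} k G) : Rep.res π (tlKInvRep π hπ X) ⟶ X :=
  repHomMk (Rep.res π (tlKInvRep π hπ X)) X (tlKInv π X).subtype
    (fun g x => tlKInvRep_ρ_coe π hπ X g x)

lemma tlKInvIncl_apply (X : Rep.{0} k G) (x : tlKInv π X) :
    (tlKInvIncl π hπ X).hom x = x.1 := rfl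

end single

/-! ### The invariants of an extension -/

section main

variable {k G H : Type} [CommRing k] [Group G] [Group H] (π : G →* H)
  (hπ : Function.Surjective π) (p : ℕ) {A₀ B₀ : Rep.{0} k H} {A B : Rep.{0} k G}
  (a' : Rep.res π A₀ ⟶ A) [IsIso a'] (b : Rep.res π B₀ ⟶ B)

lemma tl_hom_inv_apply (α : A.V) : a'.hom ((inv a').hom α) = α :=
  congrArg (fun f => f.hom α) (IsIso.inv_hom_id a')

lemma tl_inv_hom_apply (α : A₀.V) : (inv a').hom (a'.hom α) = α :=
  congrArg (fun f => f.hom α) (IsIso.hom_inv_id a')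

include a' in
/-- `ker π` acts trivially on a module inflated from `H` -/
lemma tl_ker_trivial (g : G) (hg : π g = 1) (α : A.V) : A.ρ g α = α := by
  rw [← tl_hom_inv_apply π a' α, ← Rep.hom_comm_apply a' g]
  congr 1
  change A₀.ρ (π g) _ = _
  rw [hg, map_one]
  rfl

variable {X : Rep.{0} k G} (i : B ⟶ X) (q : X ⟶ A)
  (hinj : Function.Injective i.hom) (hsurj : Function.Surjective q.hom)
  (hzero : ∀ β : B.V, q.hom (i.hom β) = 0)
  (hex : ∀ y : X.V, q.hom y = 0 → ∃ β : B.V, i.hom β = y)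
  (hA : ∀ x : A.V, p • x = 0)
  (hH1 : ∀ x : groupCohomology (Rep.res π.ker.subtype B) 1, p • x = 0 → x = 0)

include a' hinj hsurj hzero hex hA hH1 in
/-- **Hilbert 90 lifting**: every element of `A` lifts to a `ker π`-invariant element of the
extension -/
theorem tl_exists_invariant_lift (α : A.V) : ∃ x : X.V, x ∈ tlKInv π X ∧ q.hom x = α := by
  obtain ⟨x, hx⟩ := hsurj α
  -- the cocycle `n ↦ n x - x`
  have hc : ∀ n : π.ker, ∃ β : B.V, i.hom β = X.ρ (n : G) x - x := by
    intro n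
    apply hex
    rw [map_sub, Rep.hom_comm_apply q, hx, tl_ker_trivial π a' n n.2, sub_self]
  choose c hc using hc
  have hcoc : c ∈ cocycles₁ (Rep.res π.ker.subtype B) := by
    rw [mem_cocycles₁_iff]
    intro n n'
    apply hinj
    have h1 : (Rep.res π.ker.subtype B).ρ n (c n') = B.ρ (n : G) (c n') := rfl
    rw [map_add, h1, Rep.hom_comm_apply i, hc, hc, hc, map_sub]
    have h2 : ((n * n' : π.ker) : G) = (n : G) * (n' : G) := rfl
    rw [h2, tl_ρ_mul_apply]
    abel
  -- its class is killed by `p`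
  have hp : p • (H1π (Rep.res π.ker.subtype B)).hom ⟨c, hcoc⟩ = 0 := by
    obtain ⟨β₁, hβ₁⟩ := hex (p • x) (by rw [map_nsmul, hx, hA])
    rw [← map_nsmul, H1π_eq_zero_iff]
    refine ⟨β₁, funext fun n => ?_⟩
    apply hinj
    change i.hom (B.ρ (n : G) β₁ - β₁) = i.hom (p • c n)
    rw [map_sub, Rep.hom_comm_apply i, hβ₁, map_nsmul, map_nsmul, hc, smul_sub]
  obtain ⟨β₂, hβ₂⟩ := (H1π_eq_zero_iff _).1 (hH1 _ hp)
  have hβ₂' : ∀ n : π.ker, B.ρ (n : G) β₂ - β₂ = c n := fun n => congrFun hβ₂ n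
  refine ⟨x - i.hom β₂, ?_, ?_⟩
  · intro g hg
    have h1 := hc ⟨g, hg⟩
    have h2 := hβ₂' ⟨g, hg⟩
    rw [← h2, map_sub] at h1
    change i.hom (B.ρ g β₂) - i.hom β₂ = X.ρ g x - x at h1
    rw [Rep.hom_comm_apply i, sub_eq_sub_iff_add_eq_add] at h1
    rw [map_sub, sub_eq_sub_iff_add_eq_add, add_comm x]
    exact h1.symm
  · rw [map_sub, hzero, sub_zero, hx]

end main

/-! ### The invariant extension and its class -/

section ext

variable {k G H : Type} [CommRing k] [Group G] [Group H] (π : G →* H)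
  (hπ : Function.Surjective π) (p : ℕ) {A₀ B₀ : Rep.{0} k H} {A B : Rep.{0} k G}
  (a' : Rep.res π A₀ ⟶ A) [IsIso a'] (b : Rep.res π B₀ ⟶ B)
  {X : Rep.{0} k G} (i : B ⟶ X) (q : X ⟶ A)

/-- `B₀ → X^N` -/
def tlInvF : B₀ ⟶ tlKInvRep π hπ X :=
  repHomMk B₀ (tlKInvRep π hπ X)
    (LinearMap.codRestrict (tlKInv π X)
      ((i.hom.toLinearMap ∘ₗ b.hom.toLinearMap : B₀.V →ₗ[k] X.V)) (fun β g hg => by
        change X.ρ g (i.hom (b.hom β)) = i.hom (b.hom β)
        rw [← Rep.hom_comm_apply i, ← Rep.hom_comm_apply b]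
        congr 2
        change B₀.ρ (π g) β = β
        rw [hg, map_one]
        rfl))
    (fun h β => by
      obtain ⟨g, rfl⟩ := hπ h
      apply Subtype.ext
      refine Eq.trans ?_ (tlKInvRep_ρ_coe π hπ X g _).symm
      change i.hom (b.hom (B₀.ρ (π g) β)) = X.ρ g (i.hom (b.hom β))
      rw [← Rep.hom_comm_apply i, ← Rep.hom_comm_apply b]
      rfl)

lemma tlInvF_apply (β : B₀.V) :
    (show tlKInv π X from (tlInvF π hπ b i).hom β).1 = i.hom (b.hom β) := rfl

/-- `X^N → A₀` -/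
def tlInvG : tlKInvRep π hπ X ⟶ A₀ :=
  repHomMk (tlKInvRep π hπ X) A₀
    (((inv a').hom.toLinearMap ∘ₗ q.hom.toLinearMap ∘ₗ (tlKInv π X).subtype :
      tlKInv π X →ₗ[k] A₀.V))
    (fun h (x : tlKInv π X) => by
      obtain ⟨g, rfl⟩ := hπ h
      have h1 := tlKInvRep_ρ_coe π hπ X g x
      refine (congrArg (fun y => (inv a').hom (q.hom y)) h1).trans ?_
      change (inv a').hom (q.hom (X.ρ g x.1)) = A₀.ρ (π g) ((inv a').hom (q.hom x.1))
      rw [Rep.hom_comm_apply q, Rep.hom_comm_apply (inv a')]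
      rfl)

lemma tlInvG_apply (x : tlKInv π X) :
    (tlInvG π hπ a' q).hom x = (inv a').hom (q.hom x.1) := rfl

variable (w : i ≫ q = 0)

include w in
lemma tlInv_zero : tlInvF π hπ b i ≫ tlInvG π hπ a' q = 0 := by
  ext β
  change (inv a').hom (q.hom (i.hom (b.hom β))) = 0
  have h1 : q.hom (i.hom (b.hom β)) = 0 := congrArg (fun f => f.hom (b.hom β)) w
  rw [h1, map_zero]

/-- the invariant extension `0 → B₀ → X^N → A₀ → 0` -/
abbrev tlInvSC : ShortComplex (Rep.{0} k H) :=
  ShortComplex.mk (tlInvF π hπ b i) (tlInvG π hπ a' q) (tlInv_zero π hπ a' b i q w)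

variable (hbinj : Function.Injective b.hom)
  (hbsurj : ∀ y : B.V, (∀ g : G, π g = 1 → B.ρ g y = y) → ∃ x : B₀.V, b.hom x = y)
  (hA : ∀ x : A.V, p • x = 0)
  (hH1 : ∀ x : groupCohomology (Rep.res π.ker.subtype B) 1, p • x = 0 → x = 0)
  (hS : (ShortComplex.mk i q w).ShortExact)

include hbinj hbsurj hA hH1 hS in
theorem tlInvSC_shortExact : (tlInvSC π hπ a' b i q w).ShortExact := by
  have hinj : Function.Injective i.hom := (Rep.mono_iff_injective i).1 hS.mono_f
  have hsurj : Function.Surjective q.hom := (Rep.epi_iff_surjective q).1 hS.epi_g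
  have hex : ∀ y : X.V, q.hom y = 0 → ∃ x : B.V, i.hom x = y := by
    have h1 := hS.exact
    rw [← ShortComplex.exact_map_iff_of_faithful _ (forget₂ (Rep k G) (ModuleCat k)),
      ShortComplex.moduleCat_exact_iff] at h1
    exact h1
  have hzero : ∀ β : B.V, q.hom (i.hom β) = 0 := fun β => congrArg (fun f => f.hom β) w
  refine Coh.shortExact_of_functions ?_ ?_ ?_
  · intro β β' h
    have h1 : i.hom (b.hom β) = i.hom (b.hom β') := congrArg Subtype.val h
    exact hbinj (hinj h1)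
  · intro (α₀ : A₀.V)
    obtain ⟨x, hx, hqx⟩ := tl_exists_invariant_lift π p a' i q hinj hsurj hzero hex hA hH1
      (a'.hom α₀)
    refine ⟨(⟨x, hx⟩ : tlKInv π X), ?_⟩
    exact (congrArg (inv a').hom hqx).trans (tl_inv_hom_apply π a' α₀)
  · intro x hx
    have hx' : (inv a').hom (q.hom (show tlKInv π X from x).1) = 0 := hx
    have h1 : q.hom (show tlKInv π X from x).1 = 0 := by
      rw [← tl_hom_inv_apply π a' (q.hom (show tlKInv π X from x).1), hx', map_zero]
    obtain ⟨β, hβ⟩ := hex _ h1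
    obtain ⟨β₀, hβ₀⟩ := hbsurj β (fun g hg => by
      apply hinj
      rw [Rep.hom_comm_apply i, hβ]
      exact (show tlKInv π X from x).2 g hg)
    refine ⟨β₀, ?_⟩
    apply Subtype.ext
    change i.hom (b.hom β₀) = (show tlKInv π X from x).1
    rw [hβ₀, hβ]

/-- the comparison of the inflated invariant extension with the extension -/
def tlInvSCHom :
    (tlInvSC π hπ a' b i q w).map (Rep.resFunctor π) ⟶ ShortComplex.mk i q w where
  τ₁ := b
  τ₂ := tlKInvIncl π hπ X
  τ₃ := a'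
  comm₁₂ := by
    ext β
    rfl
  comm₂₃ := by
    ext (x : tlKInv π X)
    exact (tl_hom_inv_apply π a' (q.hom x.1)).symm

include hπ hbinj hbsurj hA hH1 in
/-- **Inflation is surjective on `Ext¹`** (single level). -/
theorem tl_extPull_one_surjective (ξ : Ext A B 1) :
    ∃ ξ₀ : Ext A₀ B₀ 1, extPull π (inv a') b 1 ξ₀ = ξ := by
  obtain ⟨X, i, q, w, hS, rfl⟩ := exists_shortExact_extClass_eq ξ
  have hS₀ := tlInvSC_shortExact π hπ p a' b i q w hbinj hbsurj hA hH1 hS
  refine ⟨hS₀.extClass, ?_⟩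
  rw [extPull_apply, Ext.mapExactFunctor_extClass]
  have hnat := ShortComplex.ShortExact.extClass_naturality
    (hS₀.map_of_exact (Rep.resFunctor π)) hS (tlInvSCHom π hπ a' b i q w)
  change ((hS₀.map_of_exact (Rep.resFunctor π)).extClass.comp (Ext.mk₀ b) (add_zero 1)) =
    (Ext.mk₀ a').comp hS.extClass (zero_add 1) at hnat
  refine (congrArg (fun η => (Ext.mk₀ (inv a')).comp η (zero_add 1)) hnat).trans ?_
  change (Ext.mk₀ (inv a')).comp ((Ext.mk₀ a').comp hS.extClass (zero_add 1)) (zero_add 1) = _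
  rw [← Ext.comp_assoc _ _ _ (zero_add 0) (zero_add 1) (by omega), Ext.mk₀_comp_mk₀,
    IsIso.inv_hom_id, Ext.mk₀_id_comp]

end ext

/-! ### The tower statements -/

section tower

variable (p : ℕ) {T : Tower} (A C : TowerModule ℤ T) [A.IsCartesian]
  (hC : C.HasDescent)
  (h1 : ∀ (j : T.ι) (U : Subgroup (T.G j)) (x : groupCohomology (C.atSub j U) 1),
    p • x = 0 → x = 0)
  (hA : ∀ j (a : A.C j), p • a = 0)

include hC h1 hA in
/-- the transition maps of `j ↦ Ext¹(A_j, C_j)` are surjective (Hilbert 90) -/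
theorem tl_extTrans_one_surjective {i j : T.ι} (h : i ≤ j) :
    Function.Surjective (extTrans A C 1 h) := fun ξ =>
  tl_extPull_one_surjective (T.π h) (T.π_surjective h) p (A.φ h) (C.φ h) (hC.injective h)
    (fun y hy => hC.surjective h y hy) (hA j) (h1 j (T.π h).ker) ξ

include hC h1 hA in
/-- every class of `ExtLim A C 1` lives on the bottom level -/
theorem tl_extLim_of_bot_surjective {b : T.ι} (hb : ∀ l, b ≤ l) :
    Function.Surjective (ExtLim.of A C 1 b) := by
  intro x
  obtain ⟨j, ξ, rfl⟩ := ExtLim.exists_of A C 1 x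
  obtain ⟨ξ₀, rfl⟩ := tl_extTrans_one_surjective p A C hC h1 hA (hb j) ξ
  exact ⟨ξ₀, (ExtLim.of_trans A C 1 (hb j) ξ₀).symm⟩

include hC h1 hA in
/-- **(KL)**: the passage from a directed set of levels containing the bottom level to the full
tower is surjective on `ExtLim · · 1`. -/
theorem tl_filterMap_one_surjective (P : T.ι → Prop) (hne : ∃ i, P i)
    (hdir : ∀ i j, P i → P j → ∃ l, P l ∧ i ≤ l ∧ j ≤ l) {b : T.ι} (hb : ∀ l, b ≤ l)
    (hPb : P b) : Function.Surjective (filterMap P hne hdir A C 1) := by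
  intro x
  obtain ⟨ξ₀, rfl⟩ := tl_extLim_of_bot_surjective p A C hC h1 hA hb x
  exact ⟨ExtLim.of (A.filter P hne hdir) (C.filter P hne hdir) 1 ⟨b, hPb⟩ ξ₀, rfl⟩

end tower

end

end Fermat.Agent.TW
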