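import Fermat.Agent.Lib.TW.GW.Final
import Fermat.Agent.Lib.CFT.Bridge.PsiOrder
import Fermat.Agent.Lib.CFT.Bridge.C5e
import Fermat.Agent.Lib.CFT.Bridge.LocInjS

/-!
# P10 / G3 : (C-GW) for `tlTP`, with the arithmetic inputs of the Poitou–Tate data discharged

`tl_contractGW` : `ContractGW p M (tateDual p M) (tlTP p M)` from the global Euler characteristic
formula (G4) for the concrete Poitou–Tate data `tlPTc` over the level of `tlTP`.
-/

set_option autoImplicit false
set_option linter.unusedSectionVars false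
set_option linter.style.haveILetI false

open groupCohomology CategoryTheory ExtCitation Module

namespace Fermat.Agent.TW

open Fermat.Agent.CFT Fermat.Agent.CFT.Bridge Fermat.Agent.CFT.Duality
  Fermat.Agent.CFT.Duality.TowerModule Fermat.Agent.CFT.Duality.PTData Fermat.Agent.CFT.Global

noncomputable section

variable (p : ℕ) [hp : Fact p.Prime] {k : Type} [Field k] [Algebra (ZMod p) k] [Finite k]
  (M : Rep.{0} k GQ) [FiniteDimensional k M.V] (hsm : IsSmoothRep M) (hp2 : p ≠ 2)

/-- the concrete Poitou–Tate data over the level of `tlTP` -/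
abbrev tlPTc (S : Finset Nat.Primes) (hpS : pPrime p ∈ S)
    (h₀ : (tlDataOf p M hsm).L₀.IsS S) : PTData p S (tlDataOf p M hsm).L₀ h₀ :=
  ptDataOfInputs p S hp2 hpS (orderInput p hp2 S hpS) (resInput p hp2 S hpS)
    (locInjInput p hp2 S hpS) (tlDataOf p M hsm).L₀ h₀ (tlDataOf p M hsm).hμ

/-- **WILES' FORMULA (C-GW)** for the pairings `tlTP` -/
theorem tl_contractGW
    (hE : ∀ (S : Finset Nat.Primes) (hpS : pPrime p ∈ S) (h₀ : (tlDataOf p M hsm).L₀.IsS S),
      TlEulerFormula (tlPTc p M hsm hp2 S hpS h₀)) :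
    ContractGW p M (tateDual p M) (tlTP p M) :=
  tl_contractGW_of_euler p M hsm hp2
    (fun S hpS => ⟨orderInput p hp2 S hpS, resInput p hp2 S hpS, locInjInput p hp2 S hpS⟩) hE

end

end Fermat.Agent.TW
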