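import Fermat.Agent.Lib.TW.GW.Main
import Fermat.Agent.Lib.TW.Euler.PartD.Final
import Fermat.Agent.Lib.TW.Euler.InputE.Main

/-!
# P10 / G3 + G4 : (C-GW) for `tlTP`, unconditionally

`tl_eulerFormula_tlPTc` : the global Euler characteristic formula for the concrete Poitou–Tate data
`tlPTc`; `tl_contractGW_final : ContractGW p M (tateDual p M) (tlTP p M)` (Wiles' formula).
-/

set_option autoImplicit false
set_option linter.unusedSectionVars false
set_option linter.style.haveILetI false

open groupCohomology CategoryTheory ExtCitation Module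

namespace Fermat.Agent.TW

open Fermat.Agent.CFT Fermat.Agent.CFT.Bridge Fermat.Agent.CFT.Duality
  Fermat.Agent.CFT.Duality.TowerModule Fermat.Agent.CFT.Duality.PTData Fermat.Agent.CFT.Global

noncomputable section

variable (p : ℕ) [hp : Fact p.Prime] {k : Type} [Field k] [Algebra (ZMod p) k] [Finite k]
  (M : Rep.{0} k GQ) [FiniteDimensional k M.V] (hsm : IsSmoothRep M) (hp2 : p ≠ 2)

/-- the global Euler characteristic formula (G4) for the concrete Poitou–Tate data `tlPTc` -/
theorem tl_eulerFormula_tlPTc (S : Finset Nat.Primes) (hpS : pPrime p ∈ S)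
    (h₀ : (tlDataOf p M hsm).L₀.IsS S) :
    TlEulerFormula (tlPTc p M hsm hp2 S hpS h₀) :=
  ec_euler_formula _
    (eulerInput_ptDataOfInputs p S hp2 hpS (orderInput p hp2 S hpS) (resInput p hp2 S hpS)
      (locInjInput p hp2 S hpS) (tlDataOf p M hsm).L₀ h₀ (tlDataOf p M hsm).hμ)
    hp2 ⟨pPrime p, hpS⟩

include hsm hp2 in
/-- **WILES' FORMULA (C-GW)** for the pairings `tlTP`, unconditionally -/
theorem tl_contractGW_final : ContractGW p M (tateDual p M) (tlTP p M) :=
  tl_contractGW p M hsm hp2 (fun S hpS h₀ => tl_eulerFormula_tlPTc p M hsm hp2 S hpS h₀)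

end

end Fermat.Agent.TW
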