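import Fermat.Agent.Lib.TW.GW.PTMiddle
import Fermat.Agent.Lib.TW.GW.DualSide
import Fermat.Agent.Lib.TW.Local.Perf
import Fermat.Agent.Lib.TW.Points
import Fermat.Agent.Lib.CFT.Bridge.PTDataFinal

/-!
# P10 / G3 (Poitou–Tate middle), part 8 : the middle exactness for Galois representations

`tl_ptMiddle_rep` : for a finite-dimensional `M : Rep k G_ℚ` with auxiliary data `dd : TlData p M`
whose level is unramified outside `S ∋ p`, a family of continuous local classes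
`y_q ∈ H¹(G_q, M^*(1))`, `q ∈ S`, comes from a global class in `continuousH1S S M^*(1)` iff
`∑_q u_q ⟨res_q x, y_q⟩_q = 0` for all `x ∈ continuousH1S S M`  (`⟨ , ⟩_q = tlPairD`, the `𝔽_p`-valued
local Tate pairing; `u_q` units).
-/

set_option autoImplicit false
set_option linter.unusedSectionVars false
set_option linter.style.haveILetI false

open groupCohomology CategoryTheory ExtCitation

namespace Fermat.Agent.TW

open Fermat.Agent.CFT Fermat.Agent.CFT.Bridge Fermat.Agent.CFT.Duality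
  Fermat.Agent.CFT.Duality.TowerModule Fermat.Agent.CFT.Duality.PTData Fermat.Agent.CFT.Global

noncomputable section

variable (p : ℕ) [hp : Fact p.Prime] {k : Type} [Field k] [Algebra (ZMod p) k] [Finite k]
  (M : Rep.{0} k GQ) [FiniteDimensional k M.V] (dd : TlData p M)
  (S : Finset Nat.Primes) (hp2 : p ≠ 2) (hpS : pPrime p ∈ S)
  (hord : OrderInput p S) (hres : ResInput p S) (hinj : LocInjInput p S) (h₀ : dd.L₀.IsS S)

/-- the class field theory data over the level of `dd` -/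
abbrev tlPT : PTData p S dd.L₀ h₀ :=
  ptDataOfInputs p S hp2 hpS hord hres hinj dd.L₀ h₀ dd.hμ

/-- the local class formations over the full local towers -/
def tlCfF (q : ↥S) :
    PClassFormation p (towerLoc q.1 dd.L₀) ((tlPT p M dd S hp2 hpS hord hres hinj h₀).Lq q) :=
  tlLocCF p q.1 dd.L₀

/-- the tower module of `M` is killed by `p` -/
lemma tl_towerOf_ptors (j : (levelTower dd.L₀).ι) (a : (towerOf M dd.L₀ dd.hM).C j) :
    p • a = 0 :=
  tl_nsmul_eq_zero_of_algebra p k (show M.V from a)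

/-- the tower module of `M` is finite -/
lemma tl_towerOf_finite (j : (levelTower dd.L₀).ι) : Finite ((towerOf M dd.L₀ dd.hM).C j) :=
  show Finite M.V from Module.finite_of_finite k

/-- `tlBridge1` with values in `locCont q M` -/
def tlBr {k : Type} [Field k] (M : Rep.{0} k GQ) (L₀ : Level) (hM : TrivialOn M L₀)
    (q : Nat.Primes) : HLim (towerOfLoc M L₀ hM q) 1 ≃+ locCont q M :=
  tlBridge1 M L₀ hM q

/-- the local Tate pairing `tlPairD` in tower form -/
lemma tlPairD_circle (q : Nat.Primes) (a : locCont q M) (b : locCont q (tateDual p M)) :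
    zmodToCircle p (tlPairD p M dd q a b) =
      (haveI := tlTowerOfLoc_isFinPTorsion p M dd.L₀ dd.hM q
       tlLocDual1 q dd.hμ (towerOfLoc M dd.L₀ dd.hM q)
        (tlPsiH1 p M (cycloK p k) (tl_cycloK_coe p) dd.L₀ dd.hM dd.hM' dd.hμ dd.ζ₀ dd.hζ₀ q
          ((tlBr (tateDual p M) dd.L₀ dd.hM' q).symm b))
        ((tlBr M dd.L₀ dd.hM q).symm a)) := by
  exact zmodToCircle_tlPairLim p M (cycloK p k) (tl_cycloK_coe p) dd.L₀ dd.hM dd.hM' dd.hμ dd.ζ₀
    dd.hζ₀ q ((tlBr (tateDual p M) dd.L₀ dd.hM' q).symm b) ((tlBr M dd.L₀ dd.hM q).symm a)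

/-- the restriction of a global class, in tower form -/
lemma tlBridge1_symm_resAt {k : Type} [Field k] (M : Rep.{0} k GQ) (L₀ : Level)
    (hM : TrivialOn M L₀) (S : Finset Nat.Primes) (h₀ : L₀.IsS S) (q : Nat.Primes)
    (x : continuousH1S S M) :
    (tlBr M L₀ hM q).symm ⟨resAt q M x, resAt_mem_locCont q S M x.2⟩ =
      locLimAt (isSPred S L₀) (isSPred_nonempty h₀) (isSPred_directed S L₀)
        (decompFamily q L₀) (towerOf M L₀ hM) 1 ((tlGBridge1 M L₀ hM S h₀).symm x) := by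
  rw [AddEquiv.symm_apply_eq]
  apply Subtype.ext
  refine Eq.trans ?_ (tlBridge1_locLimAt M L₀ hM S h₀ q _).symm
  rw [AddEquiv.apply_symm_apply]
  rfl

/-- the global pairing in tower form -/
lemma tl_sum_tlPairD_circle (u : ↥S → ℤ) (x : continuousH1S S M)
    (y : ∀ q : ↥S, locCont q.1 (tateDual p M)) :
    zmodToCircle p (∑ q : ↥S, u q • tlPairD p M dd q.1
        ⟨resAt q.1 M x, resAt_mem_locCont q.1 S M x.2⟩ (y q)) =
      ∑ q : ↥S, u q • (tlCfF p M dd S hp2 hpS hord hres hinj h₀ q).limFormation.alpha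
        ((towerOf M dd.L₀ dd.hM).resSub (decompFamily q.1 dd.L₀)) 1 1 rfl
        (((tlPT p M dd S hp2 hpS hord hres hinj h₀).thetaLq1 q
          ((towerOf M dd.L₀ dd.hM).resSub (decompFamily q.1 dd.L₀))
          (fun j a => tl_towerOf_ptors p M dd j a) (fun j => tl_towerOf_finite p M dd j)).symm
          (tlPsiH1 p M (cycloK p k) (tl_cycloK_coe p) dd.L₀ dd.hM dd.hM' dd.hμ dd.ζ₀ dd.hζ₀ q.1
            ((tlBr (tateDual p M) dd.L₀ dd.hM' q.1).symm (y q))))
        (tlLocAt (towerOf M dd.L₀ dd.hM) (tlPT p M dd S hp2 hpS hord hres hinj h₀) q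
          ((tlGBridge1 M dd.L₀ dd.hM S h₀).symm x)) := by
  rw [map_sum]
  refine Finset.sum_congr rfl (fun q _ => ?_)
  rw [map_zsmul, tlPairD_circle, tlBridge1_symm_resAt M dd.L₀ dd.hM S h₀ q.1 x]
  rfl

/-- **Poitou–Tate, middle exactness, for Galois representations** -/
theorem tl_ptMiddle_rep (u : ↥S → ℤ)
    (hu : TlUnitSpec (tlPT p M dd S hp2 hpS hord hres hinj h₀)
      (tlCfF p M dd S hp2 hpS hord hres hinj h₀) u)
    (y : ∀ q : ↥S, locCont q.1 (tateDual p M)) :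
    (∃ y₀ : continuousH1S S (tateDual p M), ∀ q : ↥S,
        resAt q.1 (tateDual p M) y₀ = (y q : H1 (locAt q.1 (tateDual p M)))) ↔
      ∀ x : continuousH1S S M, ∑ q : ↥S, u q • tlPairD p M dd q.1
        ⟨resAt q.1 M x, resAt_mem_locCont q.1 S M x.2⟩ (y q) = 0 := by
  have hmid := tl_ptMiddle (tlPT p M dd S hp2 hpS hord hres hinj h₀) (towerOf M dd.L₀ dd.hM)
    (fun j a => tl_towerOf_ptors p M dd j a) (tlCfF p M dd S hp2 hpS hord hres hinj h₀)
    (fun j => tl_towerOf_finite p M dd j) u hu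
    (fun q => tlPsiH1 p M (cycloK p k) (tl_cycloK_coe p) dd.L₀ dd.hM dd.hM' dd.hμ dd.ζ₀ dd.hζ₀
      q.1 ((tlBr (tateDual p M) dd.L₀ dd.hM' q.1).symm (y q)))
  -- the right hand sides agree
  have hR : (∀ x : continuousH1S S M, ∑ q : ↥S, u q • tlPairD p M dd q.1
        ⟨resAt q.1 M x, resAt_mem_locCont q.1 S M x.2⟩ (y q) = 0) ↔
      ∀ X : HLim (towerOfS M dd.L₀ dd.hM S h₀) 1,
        ∑ q : ↥S, u q • (tlCfF p M dd S hp2 hpS hord hres hinj h₀ q).limFormation.alpha
        ((towerOf M dd.L₀ dd.hM).resSub (decompFamily q.1 dd.L₀)) 1 1 rfl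
        (((tlPT p M dd S hp2 hpS hord hres hinj h₀).thetaLq1 q
          ((towerOf M dd.L₀ dd.hM).resSub (decompFamily q.1 dd.L₀))
          (fun j a => tl_towerOf_ptors p M dd j a) (fun j => tl_towerOf_finite p M dd j)).symm
          (tlPsiH1 p M (cycloK p k) (tl_cycloK_coe p) dd.L₀ dd.hM dd.hM' dd.hμ dd.ζ₀ dd.hζ₀ q.1
            ((tlBr (tateDual p M) dd.L₀ dd.hM' q.1).symm (y q))))
        (tlLocAt (towerOf M dd.L₀ dd.hM) (tlPT p M dd S hp2 hpS hord hres hinj h₀) q X) = 0 := by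
    constructor
    · intro h X
      have h1 := tl_sum_tlPairD_circle p M dd S hp2 hpS hord hres hinj h₀ u
        (tlGBridge1 M dd.L₀ dd.hM S h₀ X) y
      rw [h (tlGBridge1 M dd.L₀ dd.hM S h₀ X), map_zero, AddEquiv.symm_apply_apply] at h1
      exact h1.symm
    · intro h x
      apply zmodToCircle_injective p
      rw [tl_sum_tlPairD_circle p M dd S hp2 hpS hord hres hinj h₀ u x y, map_zero]
      exact h _
  rw [hR, ← hmid]
  -- the left hand sides agree
  constructor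
  · rintro ⟨y₀, hy₀⟩
    refine ⟨ExtLim.mapRight (triv ℤ (towerS S dd.L₀ h₀))
      (tlTwS p M (cycloK p k) (tl_cycloK_coe p) dd.L₀ dd.hM dd.hM' dd.hμ dd.ζ₀ S h₀) 1
      ((tlGBridge1 (tateDual p M) dd.L₀ dd.hM' S h₀).symm y₀), fun q => ?_⟩
    refine Eq.trans ?_ (congrArg _ (tlBridge1_symm_resAt (tateDual p M) dd.L₀ dd.hM' S h₀ q.1 y₀
      |>.symm.trans (congrArg _ (Subtype.ext (hy₀ q)))))
    exact (tlPsiH1_locLimAt p M (cycloK p k) (tl_cycloK_coe p) dd.L₀ dd.hM dd.hM' dd.hμ dd.ζ₀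
      dd.hζ₀ S h₀ q.1 _).symm
  · rintro ⟨w, hw⟩
    obtain ⟨w', rfl⟩ := (tlTwS_bijective p M (cycloK p k) (tl_cycloK_coe p) dd.L₀ dd.hM dd.hM'
      dd.hμ dd.ζ₀ dd.hζ₀ S h₀ 1).2 w
    refine ⟨tlGBridge1 (tateDual p M) dd.L₀ dd.hM' S h₀ w', fun q => ?_⟩
    have h1 := tlPsiH1_locLimAt p M (cycloK p k) (tl_cycloK_coe p) dd.L₀ dd.hM dd.hM' dd.hμ dd.ζ₀
      dd.hζ₀ S h₀ q.1 w'
    have h2 : locLimAt (isSPred S dd.L₀) (isSPred_nonempty h₀) (isSPred_directed S dd.L₀)
        (decompFamily q.1 dd.L₀) (towerOf (tateDual p M) dd.L₀ dd.hM') 1 w' =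
        (tlBr (tateDual p M) dd.L₀ dd.hM' q.1).symm (y q) :=
      (tlPsiH1 p M (cycloK p k) (tl_cycloK_coe p) dd.L₀ dd.hM dd.hM' dd.hμ dd.ζ₀ dd.hζ₀
        q.1).injective (h1.trans (hw q))
    have h3 := tlBridge1_locLimAt (tateDual p M) dd.L₀ dd.hM' S h₀ q.1 w'
    refine h3.symm.trans ?_
    change ((tlBr (tateDual p M) dd.L₀ dd.hM' q.1 _ : locCont q.1 (tateDual p M)) :
      H1 (locAt q.1 (tateDual p M))) = _
    rw [h2, AddEquiv.apply_symm_apply]

end

end Fermat.Agent.TW
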