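import Fermat.Agent.Lib.CFT.Duality.LocInj
import Fermat.Agent.Lib.CFT.Duality.FilterFormation
import Fermat.Agent.Lib.CFT.Duality.InvLim
import Fermat.Agent.Lib.CFT.Duality.LimFormation
import Fermat.Agent.Lib.CFT.Duality.D1Core

/-!
# P10 / G3 (Poitou–Tate middle), part 2 : comparison of two normalisations of the invariant maps

* `tl_invLim_unit` : two limit formations on the same `(T, C)` have invariant maps which differ by a
  unit modulo `p` on the `p`-torsion of `colim H²(G_j, C_j)`;
* `tl_alpha_unit` : hence their `α`'s differ by this unit on `p`-torsion modules;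
* `tl_invLim_filter`, `tl_alpha_filter` : the invariant map and `α` of a class formation restricted
  to a directed set of levels are induced by those of the full tower.
-/

set_option autoImplicit false
set_option linter.unusedSectionVars false
set_option linter.style.haveILetI false

open CategoryTheory Abelian

namespace Fermat.Agent.TW

open Fermat.Agent.CFT Fermat.Agent.CFT.Duality Fermat.Agent.CFT.Duality.TowerModule

noncomputable section

variable {p : ℕ} [hp : Fact p.Prime] {T : Tower} {C : TowerModule ℤ T}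

/-- the class `1/p` of `ℚ/ℤ` -/
def tlOneDivP (p : ℕ) : AddCircle (1 : ℚ) := (((1 / (p : ℚ)) : ℚ) : AddCircle (1 : ℚ))

lemma tl_nsmul_oneDivP : p • tlOneDivP p = 0 := by
  have hp0 : (p : ℚ) ≠ 0 := Nat.cast_ne_zero.2 hp.out.ne_zero
  change p • (((1 / (p : ℚ)) : ℚ) : AddCircle (1 : ℚ)) = 0
  rw [← AddCircle.coe_nsmul, nsmul_eq_mul, mul_one_div_cancel hp0]
  exact AddCircle.coe_period 1

/-- **Two normalisations of the invariant map differ by a unit modulo `p`.** -/
theorem tl_invLim_unit (L₁ L₂ : LimFormation p T C) :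
    ∃ u : ℤ, IsCoprime u (p : ℤ) ∧
      ∀ x : HLim C 2, p • x = 0 → L₁.invLim x = u • L₂.invLim x := by
  have hp0 : p ≠ 0 := hp.out.ne_zero
  obtain ⟨g, hg, hg1⟩ := L₁.inv_surjective
  have hg1' : L₁.invLim g = tlOneDivP p := hg1
  have hg2 : p • L₂.invLim g = 0 := by rw [← map_nsmul, hg, map_zero]
  obtain ⟨b, hb⟩ := exists_int_div_of_nsmul_eq_zero p hp0 _ hg2
  have hb' : L₂.invLim g = b • tlOneDivP p := hb
  -- `g ≠ 0`
  have he : tlOneDivP p ≠ 0 := by
    intro h
    have h1 : (((1 / (p : ℚ)) : ℚ) : AddCircle (1 : ℚ)) = 0 := h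
    rw [AddCircle.coe_eq_zero_iff] at h1
    obtain ⟨c, hc⟩ := h1
    have hpq : (p : ℚ) ≠ 0 := Nat.cast_ne_zero.2 hp0
    have h2 : (c : ℚ) * p = 1 := by
      rw [zsmul_eq_mul, mul_one] at hc
      rw [hc]
      field_simp
    have h3 : c * (p : ℤ) = 1 := by exact_mod_cast h2
    have h4 : ((p : ℤ)) ∣ 1 := Dvd.intro_left c h3
    have h5 : (p : ℤ) = 1 := by
      have := Int.eq_one_of_dvd_one (by positivity) h4
      exact this
    have h6 : p = 1 := by exact_mod_cast h5
    exact hp.out.one_lt.ne' h6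
  have hpb : ¬ (p : ℤ) ∣ b := by
    rintro ⟨c, rfl⟩
    have h1 : L₂.invLim g = 0 := by
      rw [hb', mul_comm, mul_smul, natCast_zsmul, tl_nsmul_oneDivP, smul_zero]
    have h2 : g = 0 := L₂.inv_injective g hg h1
    rw [h2, map_zero] at hg1'
    exact he hg1'.symm
  have hcop : IsCoprime b (p : ℤ) :=
    ((Nat.prime_iff_prime_int.1 hp.out).coprime_iff_not_dvd.2 hpb).symm
  obtain ⟨u, v, huv⟩ := hcop
  refine ⟨u, ⟨b, v, by rw [mul_comm]; exact huv⟩, ?_⟩
  intro x hx
  have hx2 : p • L₂.invLim x = 0 := by rw [← map_nsmul, hx, map_zero]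
  obtain ⟨c, hc⟩ := exists_int_div_of_nsmul_eq_zero p hp0 _ hx2
  have hc' : L₂.invLim x = c • tlOneDivP p := hc
  have hy : x - (c * u) • g = 0 := by
    apply L₂.inv_injective
    · rw [smul_sub, hx, smul_comm, hg, smul_zero, sub_zero]
    · rw [map_sub, map_zsmul, hc', hb', ← mul_smul, ← sub_smul]
      have h1 : c - c * u * b = (c * v) * (p : ℤ) := by
        have : u * b = 1 - v * (p : ℤ) := by rw [← huv]; ring
        rw [mul_assoc, this]
        ring
      rw [h1, mul_smul, natCast_zsmul, tl_nsmul_oneDivP, smul_zero]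
  rw [sub_eq_zero] at hy
  rw [hy, map_zsmul, hg1', map_zsmul, hb', ← mul_smul, ← mul_smul, mul_assoc u]
  -- `(c u) e = u (c u b) e`, as `u b ≡ 1`
  have h2 : c * u - u * (c * u * b) = (c * u * v) * (p : ℤ) := by
    have : u * b = 1 - v * (p : ℤ) := by rw [← huv]; ring
    calc c * u - u * (c * u * b) = c * u * (1 - u * b) := by ring
      _ = c * u * v * (p : ℤ) := by rw [this]; ring
  rw [← sub_eq_zero, ← sub_smul, h2, mul_smul, natCast_zsmul, tl_nsmul_oneDivP, smul_zero]

/-- the `α`'s of two limit formations differ by a unit modulo `p` on `p`-torsion modules -/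
theorem tl_alpha_unit (L₁ L₂ : LimFormation p T C) :
    ∃ u : ℤ, IsCoprime u (p : ℤ) ∧
      ∀ (A : TowerModule ℤ T) [A.IsCartesian], (∀ j (a : A.C j), p • a = 0) →
        ∀ (r s : ℕ) (h : s + r = 2) (ξ : ExtLim A C r) (x : HLim A s),
          L₁.alpha A r s h ξ x = u • L₂.alpha A r s h ξ x := by
  obtain ⟨u, hu, h⟩ := tl_invLim_unit L₁ L₂
  refine ⟨u, hu, ?_⟩
  intro A _ hA r s hrs ξ x
  rw [LimFormation.alpha_apply, LimFormation.alpha_apply]
  apply h
  have hx : p • x = 0 := ExtLim.nsmul_eq_zero_of_torsion_right (triv ℤ T) A s p hA x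
  rw [← map_nsmul, hx, map_zero]

section filter

variable (P : T.ι → Prop) (hne : ∃ i, P i) (hdir : ∀ i j, P i → P j → ∃ l, P l ∧ i ≤ l ∧ j ≤ l)
  (cf : PClassFormation p T C)
  (hpinf : ∀ (j : (T.filter P hne hdir).ι) (U : Subgroup ((T.filter P hne hdir).G j)) (n : ℕ),
    ∃ (k : (T.filter P hne hdir).ι) (h : j ≤ k), p ^ n ∣ Nat.card ((T.filter P hne hdir).pre h U))

/-- the invariant map of the restriction of a class formation to a directed set of levels -/
theorem tl_invLim_filter (z : HLim (C.filter P hne hdir) 2) :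
    (cf.filter P hne hdir hpinf).invLim z = cf.invLim (filterMap P hne hdir (triv ℤ T) C 2 z) := by
  obtain ⟨j, x, rfl⟩ := exists_hlimOf (C.filter P hne hdir) 2 z
  rw [PClassFormation.invLim_hlimOf]
  have h1 : filterMap P hne hdir (triv ℤ T) C 2 (hlimOf (C.filter P hne hdir) 2 j x) =
      hlimOf C 2 j.1 x := rfl
  exact ((congrArg cf.invLim h1).trans (cf.invLim_hlimOf j.1 x)).symm

/-- `α` of the restriction of a class formation to a directed set of levels -/
theorem tl_alpha_filter (A : TowerModule ℤ T) [A.IsCartesian] (r s : ℕ) (h : s + r = 2)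
    (ξ : ExtLim (A.filter P hne hdir) (C.filter P hne hdir) r)
    (x : HLim (A.filter P hne hdir) s) :
    (cf.filter P hne hdir hpinf).limFormation.alpha (A.filter P hne hdir) r s h ξ x =
      cf.limFormation.alpha A r s h (filterMap P hne hdir A C r ξ)
        (filterMap P hne hdir (triv ℤ T) A s x) := by
  rw [LimFormation.alpha_apply, LimFormation.alpha_apply, PClassFormation.limFormation_invLim,
    PClassFormation.limFormation_invLim, tl_invLim_filter]
  congr 1
  exact filterMap_comp P hne hdir (triv ℤ T) A C s r 2 h x ξ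

end filter

end

end Fermat.Agent.TW
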