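import Fermat.Agent.Lib.TW.GW.InflExt
import Fermat.Agent.Lib.TW.GW.UnitCompare
import Fermat.Agent.Lib.CFT.Duality.D2

/-!
# P10 / G3 (Poitou–Tate middle), part 3 : exactness of `H¹(G_S, A^D) → ⊕_q H¹(G_q, A^D) → H¹(G_S, A)^∨`

For `d : PTData p S L₀ h₀`, class formations `cfF q` on the FULL local towers and a finite
`p`-torsion cartesian `A` over the levels above `L₀` :

* `tl_jCSumOne_eq_zero_iff` : exactness of `Ext¹(A_S, E) → ⊕_q Ext¹(A_S, J_q) → Ext¹(A_S, C)`;
* `tlPhi q : Ext¹(A_S, J_q) → Ext¹(A_q, L_q)` (Shapiro, then passage to the full local tower), which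
  is surjective (`tlPhi_surjective`, Hilbert 90);
* `tl_ptMiddle_ext` : the middle exactness in `Ext` form, with the local pairings of `cfF q`
  up to units;
* `tl_ptMiddle` : the same in cohomological form.
-/

set_option autoImplicit false
set_option linter.unusedSectionVars false
set_option linter.style.haveILetI false

open CategoryTheory Abelian

namespace Fermat.Agent.TW

open Fermat.Agent.CFT Fermat.Agent.CFT.Duality Fermat.Agent.CFT.Duality.TowerModule
  Fermat.Agent.CFT.Duality.PTData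

noncomputable section

variable {p : ℕ} [hp : Fact p.Prime] {S : Finset Nat.Primes} {L₀ : Level} {h₀ : L₀.IsS S}
  (d : PTData p S L₀ h₀) (A : TowerModule ℤ (levelTower L₀)) [A.IsCartesian]

set_option quotPrecheck false

local notation "AS" =>
  A.filter (isSPred S L₀) (isSPred_nonempty h₀) (isSPred_directed S L₀)

local notation "Aq(" q ")" => A.resSub (decompFamily (Subtype.val q) L₀)

local notation "AqS(" q ")" =>
  (A.resSub (decompFamily (Subtype.val q) L₀)).filter (isSPred S L₀) (isSPred_nonempty h₀)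
    (isSPred_directed S L₀)

variable (hA : ∀ j (a : A.C j), p • a = 0)

/-! ### Exactness at `⊕_q Ext¹(A_S, J_q)` -/

include hA in
/-- exactness of `Ext¹(A_S, E) → ⊕_q Ext¹(A_S, J_q) → Ext¹(A_S, C)` -/
theorem tl_jCSumOne_eq_zero_iff (y : ∀ q : ↥S, ExtLim AS (d.J q) 1) :
    d.jCSumOne A y = 0 ↔
      ∃ e : ExtLim AS d.E 1, ∀ q, ExtLim.mapRight AS (d.eJ q) 1 e = y q := by
  have hA' : ∀ j (a : (AS).C j), p • a = 0 := fun j a => hA j.1 a
  set ŷ : ExtLim AS d.Jsum 1 := (ExtLim.piEquiv d.J AS 1).symm y with hŷ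
  have hproj : ∀ q, ExtLim.mapRight AS (piProj d.J q) 1 ŷ = y q := fun q =>
    congrFun ((ExtLim.piEquiv d.J AS 1).apply_symm_apply y) q
  have hsum : d.jCSumOne A y = ExtLim.mapRight AS d.jCsum 1 ŷ := by
    rw [d.mapRight_jCsum_eq AS 1 ŷ, jCSumOne_apply]
    exact Finset.sum_congr rfl (fun q _ => by rw [hproj q])
  constructor
  · intro h
    rw [hsum, ← d.sesEJ_g_comp_jmodEC, ExtLim.mapRight_comp] at h
    have h1 : ExtLim.mapRight AS d.sesEJ.g 1 ŷ = 0 :=
      (d.mapRight_jmodEC_bijective AS hA' 1).1 (h.trans (map_zero _).symm)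
    obtain ⟨e, he⟩ := d.sesEJ.covariant_exact₂ AS 1 ŷ h1
    refine ⟨e, fun q => ?_⟩
    rw [d.mapRight_eJ_eq AS q 1 e, ← hproj q]
    exact congrArg _ he
  · rintro ⟨e, he⟩
    have h1 : ŷ = ExtLim.mapRight AS d.eJsum 1 e := by
      rw [hŷ, AddEquiv.symm_apply_eq]
      funext q
      rw [ExtLim.piEquiv_apply, ← d.mapRight_eJ_eq AS q 1 e, he q]
    rw [hsum, h1, ← d.sesEJ_g_comp_jmodEC, ExtLim.mapRight_comp]
    have h2 := d.sesEJ.mapRight_g_mapRight_f AS 1 e
    change ExtLim.mapRight AS d.sesEJ.g 1 (ExtLim.mapRight AS d.eJsum 1 e) = 0 at h2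
    rw [h2, map_zero]

/-! ### Shapiro and the passage to the full local tower -/

variable (cfF : ∀ q : ↥S, PClassFormation p (towerLoc q.1 L₀) (d.Lq q))

/-- Shapiro, followed by the passage to the full local tower at `q` -/
def tlPhi (q : ↥S) : ExtLim AS (d.J q) 1 →+ ExtLim Aq(q) (d.Lq q) 1 :=
  (filterMap (T := towerLoc q.1 L₀) (isSPred S L₀) (isSPred_nonempty h₀) (isSPred_directed S L₀)
    Aq(q) (d.Lq q) 1).comp (d.jSh q A 1).toAddMonoidHom

lemma tlPhi_apply (q : ↥S) (y : ExtLim AS (d.J q) 1) :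
    tlPhi d A q y = filterMap (T := towerLoc q.1 L₀) (isSPred S L₀) (isSPred_nonempty h₀)
      (isSPred_directed S L₀) Aq(q) (d.Lq q) 1 (d.jSh q A 1 y) := rfl

include hA cfF in
/-- **`Φ_q` is surjective** (Hilbert 90 on the full local tower) -/
theorem tlPhi_surjective (q : ↥S) : Function.Surjective (tlPhi d A q) := by
  have h1 := tl_filterMap_one_surjective p Aq(q) (d.Lq q) (cfF q).descent (cfF q).h1
    (fun j a => hA j a) (isSPred S L₀) (isSPred_nonempty h₀) (isSPred_directed S L₀)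
    (b := (⟨L₀, le_refl L₀⟩ : {L : Level // L₀ ≤ L}))
    (fun l => (l : {L : Level // L₀ ≤ L}).2) h₀
  exact h1.comp (d.jSh q A 1).surjective

/-- the specification of the comparison units between the normalisations `d.cfLoc q` and `cfF q`
of the local invariant maps -/
def TlUnitSpec (u : ↥S → ℤ) : Prop :=
  ∀ (q : ↥S) (X : TowerModule ℤ (towerLoc q.1 L₀)) [X.IsCartesian],
    (∀ j (a : X.C j), p • a = 0) →
    ∀ (ξ : ExtLim (X.filter (T := towerLoc q.1 L₀) (isSPred S L₀) (isSPred_nonempty h₀)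
        (isSPred_directed S L₀)) (d.LqS q) 1)
      (x : HLim (X.filter (T := towerLoc q.1 L₀) (isSPred S L₀) (isSPred_nonempty h₀)
        (isSPred_directed S L₀)) 1),
      (d.cfLoc q).limFormation.alpha
          (X.filter (T := towerLoc q.1 L₀) (isSPred S L₀) (isSPred_nonempty h₀)
            (isSPred_directed S L₀)) 1 1 rfl ξ x =
        u q • (cfF q).limFormation.alpha X 1 1 rfl
          (filterMap (T := towerLoc q.1 L₀) (isSPred S L₀) (isSPred_nonempty h₀)
            (isSPred_directed S L₀) X (d.Lq q) 1 ξ)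
          (filterMap (T := towerLoc q.1 L₀) (isSPred S L₀) (isSPred_nonempty h₀)
            (isSPred_directed S L₀) (triv ℤ (towerLoc q.1 L₀)) X 1 x)

/-- the comparison units exist -/
theorem tl_exists_units :
    ∃ u : ↥S → ℤ, (∀ q, IsCoprime (u q) (p : ℤ)) ∧ TlUnitSpec d cfF u := by
  have h := fun q : ↥S => tl_alpha_unit (d.cfLoc q).limFormation
    ((cfF q).filter (T := towerLoc q.1 L₀) (isSPred S L₀) (isSPred_nonempty h₀)
      (isSPred_directed S L₀) (d.cfLoc q).pinf).limFormation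
  choose u hu hα using h
  refine ⟨u, hu, ?_⟩
  intro q X _ hX ξ x
  rw [hα q (X.filter (T := towerLoc q.1 L₀) (isSPred S L₀) (isSPred_nonempty h₀)
    (isSPred_directed S L₀)) (fun j a => hX j.1 a) 1 1 rfl ξ x]
  congr 1
  exact tl_alpha_filter (T := towerLoc q.1 L₀) (isSPred S L₀) (isSPred_nonempty h₀)
    (isSPred_directed S L₀) (cfF q) (d.cfLoc q).pinf X 1 1 rfl ξ x

/-- the localisation map `H¹_S(A) → H¹(G_q, A)` (full local tower) -/
abbrev tlLocAt (_d : PTData p S L₀ h₀) (q : ↥S) : HLim AS 1 →+ HLim Aq(q) 1 :=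
  locLimAt (isSPred S L₀) (isSPred_nonempty h₀) (isSPred_directed S L₀)
    (decompFamily q.1 L₀) A 1

include hA in
/-- the global pairing in terms of the local pairings over the full local towers -/
theorem tl_gOne_eq (u : ↥S → ℤ) (hu : TlUnitSpec d cfF u)
    (y : ∀ q : ↥S, ExtLim AS (d.J q) 1) (x : HLim AS 1) :
    d.gOne A y x = ∑ q, u q • (cfF q).limFormation.alpha Aq(q) 1 1 rfl (tlPhi d A q (y q))
      (tlLocAt A d q x) := by
  rw [d.gOne_apply A hA y x]
  refine Finset.sum_congr rfl (fun q _ => ?_)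
  rw [hu q Aq(q) (fun j a => hA j a)]
  congr 2
  exact filterMap_locLimFilter (isSPred S L₀) (isSPred_nonempty h₀) (isSPred_directed S L₀)
    (decompFamily q.1 L₀) A 1 x

variable (hfin : ∀ j, Finite (A.C j))

include hA hfin in
/-- **Poitou–Tate, middle exactness, `Ext` form.** -/
theorem tl_ptMiddle_ext (u : ↥S → ℤ) (hu : TlUnitSpec d cfF u)
    (y' : ∀ q : ↥S, ExtLim Aq(q) (d.Lq q) 1) :
    (∃ e : ExtLim AS d.E 1, ∀ q, tlPhi d A q (ExtLim.mapRight AS (d.eJ q) 1 e) = y' q) ↔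
      ∀ x : HLim AS 1, ∑ q, u q • (cfF q).limFormation.alpha Aq(q) 1 1 rfl (y' q)
        (tlLocAt A d q x) = 0 := by
  constructor
  · rintro ⟨e, he⟩ x
    have h1 := tl_gOne_eq d A hA cfF u hu (fun q => ExtLim.mapRight AS (d.eJ q) 1 e) x
    simp only [he] at h1
    rw [← h1]
    change d.alphaOne A (d.jCSumOne A (fun q => ExtLim.mapRight AS (d.eJ q) 1 e)) x = 0
    rw [(tl_jCSumOne_eq_zero_iff d A hA _).2 ⟨e, fun q => rfl⟩, map_zero]
    rfl
  · intro h
    choose y hy using fun q => tlPhi_surjective d A hA cfF q (y' q)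
    have h1 : d.alphaOne A (d.jCSumOne A y) = 0 := by
      apply AddMonoidHom.ext
      intro x
      have h2 := tl_gOne_eq d A hA cfF u hu y x
      simp only [hy] at h2
      exact h2.trans (h x)
    have h3 : d.jCSumOne A y = 0 :=
      (d.alpha1_global_bijective A hfin hA).1 (h1.trans (map_zero _).symm)
    obtain ⟨e, he⟩ := (tl_jCSumOne_eq_zero_iff d A hA y).1 h3
    exact ⟨e, fun q => by rw [he q, hy q]⟩

/-! ### The cohomological form -/

/-- the localisation map `H¹(G_S, Hom(A, μ)) → H¹(G_q, Hom(A, μ))` (full local tower) -/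
def tlLocHom (q : ↥S) : HLim ((AS).homTo d.μS) 1 →+ HLim (Aq(q).homTo (d.μLoc q)) 1 :=
  (ExtLim.mapRight (triv ℤ (towerLoc q.1 L₀)) (homToResSub A d.μ (decompFamily q.1 L₀)) 1).comp
    (locLimAt (isSPred S L₀) (isSPred_nonempty h₀) (isSPred_directed S L₀)
      (decompFamily q.1 L₀) (A.homTo d.μ) 1)

lemma tlLocHom_apply (q : ↥S) (w : HLim ((AS).homTo d.μS) 1) :
    tlLocHom d A q w =
      ExtLim.mapRight (triv ℤ (towerLoc q.1 L₀)) (homToResSub A d.μ (decompFamily q.1 L₀)) 1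
        (locLimAt (isSPred S L₀) (isSPred_nonempty h₀) (isSPred_directed S L₀)
          (decompFamily q.1 L₀) (A.homTo d.μ) 1 w) := rfl

include hA hfin in
/-- **Step D in degree 1**: under the Kummer comparisons, `Ext¹(A_S, E) → Ext¹(A_q, L_q)` is the
localisation map of `Hom(A, μ)`. -/
theorem tl_thetaLq1_tlPhi (q : ↥S) (e : ExtLim AS d.E 1) :
    d.thetaLq1 q Aq(q) (fun j a => hA j a) (fun j => hfin j)
        (tlPhi d A q (ExtLim.mapRight AS (d.eJ q) 1 e)) =
      tlLocHom d A q (d.thetaE1 AS (fun j a => hA j.1 a) (fun j => hfin j.1) e) := by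
  rw [tlPhi_apply, d.filterMap_jSh_mapRight_eJ q A 1 e]
  change (d.kappaLocEquiv q Aq(q) (fun j a => hA j a) 1).symm
    (theta1Lim Aq(q) (d.Lq q) p (fun j => rep_moduleFinite (Aq(q).C j) (hfin j))
      (fun j a => hA j a) (d.Lq_isPDiv q) _) = _
  rw [AddEquiv.symm_apply_eq, kappaLocEquiv_apply]
  have h1 := theta1Lim_pull (CoHomAlong.filterSub (isSPred S L₀) (isSPred_nonempty h₀)
    (isSPred_directed S L₀) (decompFamily q.1 L₀) A) ((d.prAlong q).precomp (d.eJ q)) p
    (fun j => rep_moduleFinite ((AS).C j) (hfin j.1)) (fun j a => hA j.1 a)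
    (fun j => rep_moduleFinite (Aq(q).C j) (hfin j)) (fun j a => hA j a) d.E_isPDiv
    (d.Lq_isPDiv q) e
  refine h1.trans ?_
  have h2 : theta1Lim AS d.E p (fun j => rep_moduleFinite ((AS).C j) (hfin j.1))
      (fun j a => hA j.1 a) d.E_isPDiv e =
      ExtLim.mapRight (triv ℤ (towerS S L₀ h₀)) (homToMap AS d.κ) 1
        (d.thetaE1 AS (fun j a => hA j.1 a) (fun j => hfin j.1) e) :=
    ((d.kappaEquiv AS (fun j a => hA j.1 a) 1).apply_symm_apply _).symm
  rw [h2]
  have h3 := pull_homA_mapRight_kappa (isSPred S L₀) (isSPred_nonempty h₀)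
    (isSPred_directed S L₀) (decompFamily q.1 L₀) A d.μ d.E (d.Lq q) d.κ (d.κloc q)
    ((d.prAlong q).precomp (d.eJ q)) (fun i m => d.κ_compat q i m)
    (kummerLocHom A d.μ (decompFamily q.1 L₀) (d.κloc q))
    (fun i v x => kummerLocHom_apply A d.μ (decompFamily q.1 L₀) (d.κloc q) i v x) 1
    (d.thetaE1 AS (fun j a => hA j.1 a) (fun j => hfin j.1) e)
  refine h3.trans ?_
  rw [tlLocHom_apply]
  exact ExtLim.mapRight_comp (triv ℤ (towerLoc q.1 L₀)) _ _ 1 _

include hA hfin in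
/-- **Poitou–Tate, middle exactness, cohomological form**: a family of local classes
`y_q ∈ H¹(G_q, Hom(A, μ))` comes from a global class in `H¹(G_S, Hom(A, μ))` iff it is orthogonal
to the image of `H¹(G_S, A)` for the sum of the local pairings (up to the units `u_q`). -/
theorem tl_ptMiddle (u : ↥S → ℤ) (hu : TlUnitSpec d cfF u)
    (y : ∀ q : ↥S, HLim (Aq(q).homTo (d.μLoc q)) 1) :
    (∃ w : HLim ((AS).homTo d.μS) 1, ∀ q, tlLocHom d A q w = y q) ↔
      ∀ x : HLim AS 1, ∑ q, u q • (cfF q).limFormation.alpha Aq(q) 1 1 rfl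
        ((d.thetaLq1 q Aq(q) (fun j a => hA j a) (fun j => hfin j)).symm (y q))
        (tlLocAt A d q x) = 0 := by
  rw [← tl_ptMiddle_ext d A hA cfF hfin u hu]
  constructor
  · rintro ⟨w, hw⟩
    refine ⟨(d.thetaE1 AS (fun j a => hA j.1 a) (fun j => hfin j.1)).symm w, fun q => ?_⟩
    rw [AddEquiv.eq_symm_apply, tl_thetaLq1_tlPhi d A hA hfin q, AddEquiv.apply_symm_apply,
      hw q]
  · rintro ⟨e, he⟩
    refine ⟨d.thetaE1 AS (fun j a => hA j.1 a) (fun j => hfin j.1) e, fun q => ?_⟩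
    rw [← tl_thetaLq1_tlPhi d A hA hfin q, he q, AddEquiv.apply_symm_apply]

end

end Fermat.Agent.TW
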